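/-
S55 / NIT / Inst : the CONCRETE instance of `SI.LocData` (congruence form).  Definitions.

Part 1: a field `k` with a valuation `v : Valuation k ℤᵐ⁰` (general; also usable for henselian
fields): `ball v n = {x | v x ≤ exp (-n)}`, `U0 v` = units, `UU v n = {x | v (x - 1) < exp (-n)}`.
Part 2: number fields: norms from a finite `K`-algebra, the algebra `Ab K p b = K[X]/(X^p - b)`,
the local norm groups `nrmD K p b v`.
-/
import Fermat.Agent.S55.NIT.Defs
import Fermat.Agent.S55.NIT.SI.Defs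

set_option autoImplicit false
set_option linter.unusedSectionVars false

noncomputable section

namespace Fermat.Agent.S55.NIT.Inst

open IsDedekindDomain NumberField WithZero Polynomial

section Val

variable {k : Type*} [Field k] (v : Valuation k ℤᵐ⁰)

/-- The fractional ideal `{x | v x ≤ exp (-n)}` as an additive subgroup. -/
def ball (n : ℤ) : AddSubgroup k where
  carrier := {x | v x ≤ exp (-n)}
  zero_mem' := by simp
  add_mem' := by
    intro x y hx hy
    exact le_trans (v.map_add x y) (max_le hx hy)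
  neg_mem' := by
    intro x hx
    simpa [Valuation.map_neg] using hx

theorem mem_ball {n : ℤ} {x : k} : x ∈ ball v n ↔ v x ≤ exp (-n) := Iff.rfl

/-- The units of the valuation, inside `kˣ`. -/
def U0 : Subgroup kˣ where
  carrier := {x | v (x : k) = 1}
  one_mem' := by simp
  mul_mem' := by
    intro x y hx hy
    simp only [Set.mem_ofPred_eq] at hx hy ⊢
    rw [Units.val_mul, map_mul, hx, hy, one_mul]
  inv_mem' := by
    intro x hx
    simp only [Set.mem_ofPred_eq] at hx ⊢
    rw [Units.val_inv_eq_inv_val, map_inv₀, hx, inv_one]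

theorem mem_U0 {x : kˣ} : x ∈ U0 v ↔ v (x : k) = 1 := Iff.rfl

variable {v} in
theorem val_eq_one_of_lt {x : k} (h : v (x - 1) < 1) : v x = 1 := by
  have h1 : v (x - 1) < v (1 : k) := by rwa [map_one]
  have := Valuation.map_add_eq_of_lt_right v h1
  rwa [sub_add_cancel, map_one] at this

theorem exp_neg_natCast_le_one (n : ℕ) : exp (-(n : ℤ)) ≤ (1 : ℤᵐ⁰) := by
  rw [← exp_zero, exp_le_exp]; omega

/-- Principal units of level `> n`. -/
def UU (n : ℕ) : Subgroup kˣ where
  carrier := {x | v ((x : k) - 1) < exp (-(n : ℤ))}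
  one_mem' := by simp
  mul_mem' := by
    intro x y hx hy
    simp only [Set.mem_ofPred_eq] at hx hy ⊢
    have hx1 : v (x : k) = 1 := val_eq_one_of_lt (lt_of_lt_of_le hx (exp_neg_natCast_le_one n))
    have e : ((x * y : kˣ) : k) - 1 = (x : k) * ((y : k) - 1) + ((x : k) - 1) := by
      push_cast; ring
    rw [e]
    refine lt_of_le_of_lt (Valuation.map_add _ _ _) (max_lt ?_ hx)
    rwa [map_mul, hx1, one_mul]
  inv_mem' := by
    intro x hx
    simp only [Set.mem_ofPred_eq] at hx ⊢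
    have hx1 : v (x : k) = 1 := val_eq_one_of_lt (lt_of_lt_of_le hx (exp_neg_natCast_le_one n))
    have e : ((x⁻¹ : kˣ) : k) - 1 = -((x : k)⁻¹ * ((x : k) - 1)) := by
      have : (x : k) ≠ 0 := x.ne_zero
      push_cast; field_simp; ring
    rw [e, Valuation.map_neg, map_mul, map_inv₀, hx1, inv_one, one_mul]
    exact hx

theorem mem_UU {n : ℕ} {x : kˣ} : x ∈ UU v n ↔ v ((x : k) - 1) < exp (-(n : ℤ)) := Iff.rfl

theorem UU_antitone {m n : ℕ} (h : m ≤ n) : UU v n ≤ UU v m := by
  intro x hx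
  rw [mem_UU] at hx ⊢
  refine lt_of_lt_of_le hx ?_
  rw [exp_le_exp]; omega

theorem UU_le_U0 (n : ℕ) : UU v n ≤ U0 v := fun _ hx =>
  val_eq_one_of_lt (lt_of_lt_of_le hx (exp_neg_natCast_le_one n))

variable (k) in
/-- `p`-th powers in `kˣ`. -/
def pwk (p : ℕ) : Subgroup kˣ := (powMonoidHom p : kˣ →* kˣ).range

theorem mem_pwk {p : ℕ} {x : kˣ} : x ∈ pwk k p ↔ ∃ y : kˣ, y ^ p = x := Iff.rfl

/-- In `ℤᵐ⁰`: `y < exp n ↔ y ≤ exp (n - 1)`. -/
theorem lt_exp_iff_le {y : ℤᵐ⁰} {n : ℤ} : y < exp n ↔ y ≤ exp (n - 1) := by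
  rcases eq_or_ne y 0 with rfl | hy
  · simp
  · obtain ⟨m, rfl⟩ : ∃ m : ℤ, y = exp m := ⟨log y, (exp_log hy).symm⟩
    rw [exp_lt_exp, exp_le_exp]; omega

end Val

section NF

variable {K : Type*} [Field K] [NumberField K]

theorem pu_eq_UU (v : Pl K) (n : ℕ) : pu v n = UU (v.valuation K) n := rfl

theorem Uv_eq_U0 (v : Pl K) : SI.Uv K v = U0 (v.valuation K) := rfl

theorem pw_eq_pwk (p : ℕ) : pw K p = pwk K p := rfl

variable (K)

/-- Norms of units of a `K`-algebra `A`. -/
def nrmA (A : Type*) [CommRing A] [Algebra K A] : Subgroup Kˣ :=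
  (Units.map (Algebra.norm K : A →* K)).range

/-- Local norms at `v` from a `K`-algebra `A` (approximation form). -/
def locNormA (A : Type*) [CommRing A] [Algebra K A] (v : Pl K) : Subgroup Kˣ :=
  ⨅ n : ℕ, nrmA K A ⊔ pu v n

theorem nrmA_eq_nrm (L : Type*) [Field L] [NumberField L] [Algebra K L] : nrmA K L = nrm K L := rfl

theorem locNormA_eq_locNorm (L : Type*) [Field L] [NumberField L] [Algebra K L] (v : Pl K) :
    locNormA K L v = locNorm K L v := rfl

/-- The Kummer algebra `K[X]/(X^p - b)`. -/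
abbrev Ab (p : ℕ) (b : Kˣ) : Type _ := AdjoinRoot (X ^ p - C (b : K))

open Classical in
/-- Local norms at `v` from `K(b^(1/p))` (everything if `b` is a global `p`-th power). -/
def nrmD (p : ℕ) (b : Kˣ) (v : Pl K) : Subgroup Kˣ :=
  if ∃ c : Kˣ, c ^ p = b then ⊤ else locNormA K (Ab K p b) v

variable {K}

theorem nrmD_of_pow {p : ℕ} {b : Kˣ} (h : ∃ c : Kˣ, c ^ p = b) (v : Pl K) : nrmD K p b v = ⊤ := by
  simp [nrmD, h]

theorem nrmD_of_not_pow {p : ℕ} {b : Kˣ} (h : ∀ c : Kˣ, c ^ p ≠ b) (v : Pl K) :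
    nrmD K p b v = locNormA K (Ab K p b) v := by
  have : ¬ ∃ c : Kˣ, c ^ p = b := fun ⟨c, hc⟩ => h c hc
  simp [nrmD, this]

end NF

end Fermat.Agent.S55.NIT.Inst

end
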