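/-
S55 / NIT / Inst, node G2-D1 : weak approximation at finitely many finite places.
-/
import Fermat.Agent.S55.NIT.Inst.Defs

set_option autoImplicit false
set_option maxHeartbeats 400000

namespace Fermat.Agent.S55.NIT.Inst

open IsDedekindDomain NumberField WithZero Polynomial

section NF

variable {K : Type*} [Field K] [NumberField K]

/-- G2-D1 (file `WeakApprox.lean`). -/
theorem weak_approx (T : Finset (Pl K)) (x : Pl K → K) (n : ℕ) :
    ∃ y : K, ∀ v ∈ T, v.valuation K (y - x v) < exp (-(n : ℤ)) := by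
  classical
  obtain ⟨d, hd⟩ := IsLocalization.exist_integer_multiples_of_finset (nonZeroDivisors (𝓞 K))
    (T.image x)
  have hd0 : (d : 𝓞 K) ≠ 0 := nonZeroDivisors.coe_ne_zero d
  have hdK : algebraMap (𝓞 K) K (d : 𝓞 K) ≠ 0 := by
    simp
  have ha : ∀ v : T, ∃ a : 𝓞 K, algebraMap (𝓞 K) K a = (d : 𝓞 K) • x v :=
    fun v => hd (x v) (Finset.mem_image_of_mem x v.2)
  choose a ha using ha
  have hc : ∀ v : Pl K, ∃ c : ℕ, exp (-(c : ℤ)) ≤ v.intValuation (d : 𝓞 K) := by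
    intro v
    have h0 : v.intValuation (d : 𝓞 K) ≠ 0 := v.intValuation_ne_zero _ hd0
    refine ⟨(-log (v.intValuation (d : 𝓞 K))).toNat, ?_⟩
    conv_rhs => rw [← exp_log h0]
    rw [exp_le_exp]
    have := Int.self_le_toNat (-log (v.intValuation (d : 𝓞 K)))
    omega
  choose c hc using hc
  set m := n + 1 + ∑ v ∈ T, c v with hm
  obtain ⟨z, hz⟩ := IsDedekindDomain.exists_forall_sub_mem_ideal (s := T)
    (fun v : Pl K => v.asIdeal) (fun _ => m) (fun v _ => v.prime)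
    (fun v _ w _ hvw h => hvw (HeightOneSpectrum.ext h)) a
  refine ⟨algebraMap (𝓞 K) K z / algebraMap (𝓞 K) K d, fun v hv => ?_⟩
  have h1 : v.intValuation (z - a ⟨v, hv⟩) ≤ exp (-(m : ℤ)) :=
    (v.intValuation_le_pow_iff_mem _ _).mpr (hz v hv)
  have h2 : algebraMap (𝓞 K) K z / algebraMap (𝓞 K) K d - x v
      = algebraMap (𝓞 K) K (z - a ⟨v, hv⟩) / algebraMap (𝓞 K) K d := by
    rw [map_sub, ha, Algebra.smul_def]
    field_simp
  have h0 : v.intValuation (d : 𝓞 K) ≠ 0 := v.intValuation_ne_zero _ hd0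
  rw [h2, map_div₀, HeightOneSpectrum.valuation_of_algebraMap,
    HeightOneSpectrum.valuation_of_algebraMap, div_lt_iff₀ (zero_lt_iff.mpr h0)]
  calc v.intValuation (z - a ⟨v, hv⟩) ≤ exp (-(m : ℤ)) := h1
    _ < exp (-(n : ℤ)) * exp (-(c v : ℤ)) := by
      rw [← exp_add, exp_lt_exp]
      have : c v ≤ ∑ v ∈ T, c v := Finset.single_le_sum (fun _ _ => Nat.zero_le _) hv
      omega
    _ ≤ exp (-(n : ℤ)) * v.intValuation (d : 𝓞 K) := mul_le_mul_right (hc v) _

end NF

end Fermat.Agent.S55.NIT.Inst
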