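/-
S55 / NIT / Inst, node G2-B1: `[P^a : P^(a+d)] = q^d` for a discrete valuation with a uniformizer.
-/
import Fermat.Agent.S55.NIT.Inst.Defs

set_option autoImplicit false
set_option linter.unusedSectionVars false

namespace Fermat.Agent.S55.NIT.Inst

open IsDedekindDomain NumberField WithZero Polynomial

section Discrete

variable {k : Type*} [Field k] (v : Valuation k ℤᵐ⁰)

theorem ball_antitone {m n : ℤ} (h : m ≤ n) : ball v n ≤ ball v m := by
  intro x hx
  rw [mem_ball] at hx ⊢
  refine hx.trans ?_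
  rw [exp_le_exp]
  omega

/-- multiplication by `π ^ a` shifts the balls -/
theorem map_mulLeft_ball {π : k} (hπ : v π = exp (-1 : ℤ)) (a n : ℤ) :
    (ball v n).map (AddMonoidHom.mulLeft (π ^ a)) = ball v (n + a) := by
  have hπ0 : π ≠ 0 := by
    intro h
    rw [h, map_zero] at hπ
    exact exp_ne_zero hπ.symm
  have hva : v (π ^ a) = exp (-a) := by
    rw [map_zpow₀, hπ, ← exp_zsmul]
    simp
  ext x
  rw [AddSubgroup.mem_map, mem_ball]
  constructor
  · rintro ⟨y, hy, rfl⟩
    rw [mem_ball] at hy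
    rw [AddMonoidHom.coe_mulLeft, map_mul, hva]
    calc exp (-a) * v y ≤ exp (-a) * exp (-n) := mul_le_mul_right hy _
      _ = exp (-(n + a)) := by rw [← exp_add]; congr 1; ring
  · intro hx
    refine ⟨(π ^ a)⁻¹ * x, ?_, ?_⟩
    · rw [mem_ball, map_mul, map_inv₀, hva, ← exp_neg]
      calc exp (- -a) * v x ≤ exp (- -a) * exp (-(n + a)) := mul_le_mul_right hx _
        _ = exp (-n) := by rw [← exp_add]; congr 1; ring
    · rw [AddMonoidHom.coe_mulLeft, mul_inv_cancel_left₀ (zpow_ne_zero _ hπ0)]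

theorem relIndex_ball_succ {π : k} (hπ : v π = exp (-1 : ℤ)) (a : ℤ) :
    (ball v (a + 1)).relIndex (ball v a) = (ball v 1).relIndex (ball v 0) := by
  have hπ0 : π ≠ 0 := by
    intro h
    rw [h, map_zero] at hπ
    exact exp_ne_zero hπ.symm
  have hinj : Function.Injective (AddMonoidHom.mulLeft (π ^ a)) :=
    mul_right_injective₀ (zpow_ne_zero _ hπ0)
  have h := AddSubgroup.relIndex_map_map_of_injective (ball v 1) (ball v 0) hinj
  rw [map_mulLeft_ball v hπ, map_mulLeft_ball v hπ, zero_add, add_comm] at h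
  exact h

/-- G2-B1 (file `BallIndex.lean`). -/
theorem relIndex_ball {π : k} (hπ : v π = exp (-1 : ℤ)) (a : ℤ) (d : ℕ) :
    (ball v (a + d)).relIndex (ball v a) = (ball v 1).relIndex (ball v 0) ^ d := by
  induction d with
  | zero => simp
  | succ d ih =>
    have h1 : ball v (a + (d + 1 : ℕ)) ≤ ball v (a + d) := ball_antitone v (by push_cast; omega)
    have h2 : ball v (a + d) ≤ ball v a := ball_antitone v (by omega)
    rw [← AddSubgroup.relIndex_mul_relIndex _ _ _ h1 h2, ih, pow_succ, mul_comm]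
    congr 1
    have e : a + ((d + 1 : ℕ) : ℤ) = (a + d) + 1 := by push_cast; ring
    rw [e]
    exact relIndex_ball_succ v hπ (a + d)

end Discrete

end Fermat.Agent.S55.NIT.Inst
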