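/-
S55 / NIT / Inst, node G2-B7: the index of `kˣᵖ · U^(2e+1)` in `kˣ`.   Owner: helper57.
-/
import Fermat.Agent.S55.NIT.Inst.Defs

set_option autoImplicit false
set_option linter.unusedSectionVars false

namespace Fermat.Agent.S55.NIT.Inst

open IsDedekindDomain NumberField WithZero Polynomial

namespace LocalIndex2

/-- the `p`-th powers have index `p` in `Multiplicative ℤ` -/
theorem index_range_pow_int {p : ℕ} :
    (powMonoidHom p : Multiplicative ℤ →* Multiplicative ℤ).range.index = p := by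
  have h : (powMonoidHom p : Multiplicative ℤ →* Multiplicative ℤ).range =
      AddSubgroup.toSubgroup (AddSubgroup.zmultiples (p : ℤ)) := by
    ext x
    constructor
    · rintro ⟨y, rfl⟩
      change Multiplicative.toAdd (y ^ p) ∈ AddSubgroup.zmultiples (p : ℤ)
      rw [AddSubgroup.mem_zmultiples_iff]
      exact ⟨Multiplicative.toAdd y, by simp [mul_comm]⟩
    · intro hx
      change Multiplicative.toAdd x ∈ AddSubgroup.zmultiples (p : ℤ) at hx
      rw [AddSubgroup.mem_zmultiples_iff] at hx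
      obtain ⟨m, hm⟩ := hx
      refine ⟨Multiplicative.ofAdd m, ?_⟩
      change (Multiplicative.ofAdd m) ^ p = x
      rw [← ofAdd_nsmul, ← ofAdd_toAdd x, ← hm]
      simp [mul_comm]
  rw [h, AddSubgroup.index_toSubgroup, Int.index_zmultiples]
  simp

variable {k : Type*} [Field k] (v : Valuation k ℤᵐ⁰)

/-- the order homomorphism `kˣ → ℤ` (multiplicative notation) -/
noncomputable def ord : kˣ →* Multiplicative ℤ :=
  (WithZero.unitsWithZeroEquiv (α := Multiplicative ℤ)).toMonoidHom.comp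
    (Units.map (v : k →* ℤᵐ⁰))

theorem coe_ord (x : kˣ) : ((ord v x : Multiplicative ℤ) : ℤᵐ⁰) = v (x : k) := by
  unfold ord
  simp [WithZero.coe_unitsWithZeroEquiv_eq_units_val]

theorem ker_ord : (ord v).ker = U0 v := by
  ext x
  rw [MonoidHom.mem_ker, mem_U0, ← coe_ord]
  exact ⟨fun h => by rw [h]; rfl, fun h => WithZero.coe_injective (by rw [h]; rfl)⟩

theorem ord_surjective {π : k} (hπ : v π = exp (-1 : ℤ)) : Function.Surjective (ord v) := by
  have hπ0 : π ≠ 0 := by
    rintro rfl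
    rw [map_zero] at hπ
    exact (WithZero.exp_ne_zero).symm hπ
  have h1 : ord v (Units.mk0 π hπ0) = Multiplicative.ofAdd (-1 : ℤ) := by
    apply WithZero.coe_injective
    rw [coe_ord, Units.val_mk0, hπ]
    rfl
  intro m
  refine ⟨(Units.mk0 π hπ0) ^ (-(Multiplicative.toAdd m)), ?_⟩
  rw [map_zpow, h1, ← ofAdd_zsmul]
  simp

theorem index_U0_sup_pwk {p : ℕ} {π : k} (hπ : v π = exp (-1 : ℤ)) :
    (U0 v ⊔ pwk k p).index = p := by
  have hs := ord_surjective v hπ
  rw [← Subgroup.index_map_eq _ hs (by rw [ker_ord]; exact le_sup_left), Subgroup.map_sup]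
  have h1 : (U0 v).map (ord v) = ⊥ := by
    rw [← ker_ord, (Subgroup.map_eq_bot_iff _).mpr le_rfl]
  have h2 : (pwk k p).map (ord v) = (powMonoidHom p : Multiplicative ℤ →* Multiplicative ℤ).range := by
    ext y
    constructor
    · rintro ⟨_, ⟨x, rfl⟩, rfl⟩
      exact ⟨ord v x, by simp⟩
    · rintro ⟨z, rfl⟩
      obtain ⟨x, rfl⟩ := hs z
      exact ⟨x ^ p, ⟨x, rfl⟩, by simp⟩
  rw [h1, h2, bot_sup_eq, index_range_pow_int]

end LocalIndex2

open LocalIndex2

variable {k : Type*} [Field k] (v : Valuation k ℤᵐ⁰)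

/-- G2-B7 with G2-B6 as a hypothesis. -/
theorem index_pwk_sup_UU_of {p : ℕ} {π : k} (hπ : v π = exp (-1 : ℤ)) {e : ℕ}
    (hB6 : (pwk k p ⊔ UU v (2 * e)).relIndex (U0 v) =
      p * (ball v 1).relIndex (ball v 0) ^ e) :
    (pwk k p ⊔ UU v (2 * e)).index = p ^ 2 * (ball v 1).relIndex (ball v 0) ^ e := by
  have h1 : U0 v ⊔ (pwk k p ⊔ UU v (2 * e)) = U0 v ⊔ pwk k p := by
    apply le_antisymm
    · exact sup_le le_sup_left (sup_le le_sup_right ((UU_le_U0 v _).trans le_sup_left))
    · exact sup_le le_sup_left (le_sup_left.trans le_sup_right)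
  rw [← Subgroup.relIndex_mul_index (le_sup_right : _ ≤ U0 v ⊔ (pwk k p ⊔ UU v (2 * e))),
    Subgroup.relIndex_sup_right, hB6, h1, index_U0_sup_pwk v hπ]
  ring

end Fermat.Agent.S55.NIT.Inst
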