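/-
S55 / NIT / Inst, node G2-B6, group-theoretic core: `[U : U ∩ k^×p U^(2e+1)] = p q^e`, with the
inputs of the nodes A2 A3 A4 B1 B2 B3 B4 as hypotheses.
-/
import Fermat.Agent.S55.NIT.Inst.Defs

set_option autoImplicit false
set_option linter.unusedSectionVars false

namespace Fermat.Agent.S55.NIT.Inst

open WithZero

namespace LocalIndex

variable {k : Type*} [Field k] (v : Valuation k ℤᵐ⁰)

/-- step (a) -/
theorem pwk_sup_UU_inf_U0 {p : ℕ} (hp : p ≠ 0) (n : ℕ) :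
    (pwk k p ⊔ UU v n) ⊓ U0 v = (U0 v).map (powMonoidHom p) ⊔ UU v n := by
  apply le_antisymm
  · rintro x ⟨hxP, hxU⟩
    obtain ⟨a, ⟨y, rfl⟩, u, hu, rfl⟩ := Subgroup.mem_sup.mp hxP
    have hu1 : v (u : k) = 1 := UU_le_U0 v n hu
    have hy : y ∈ U0 v := by
      rw [mem_U0]
      have h1 : v (((powMonoidHom p) y * u : kˣ) : k) = 1 := hxU
      rw [Units.val_mul, map_mul, hu1, mul_one, powMonoidHom_apply, Units.val_pow_eq_pow_val,
        map_pow] at h1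
      exact (pow_eq_one_iff.mp h1).resolve_right hp
    exact Subgroup.mul_mem_sup (Subgroup.mem_map_of_mem _ hy) hu
  · apply le_inf
    · apply sup_le_sup_right
      rintro _ ⟨y, -, rfl⟩
      exact ⟨y, rfl⟩
    · apply sup_le
      · rintro _ ⟨y, hy, rfl⟩
        exact (U0 v).pow_mem hy p
      · exact UU_le_U0 v n

theorem exp_sq (e : ℕ) : (exp (-(e : ℤ)) : ℤᵐ⁰) ^ 2 = exp (-((2 * e : ℕ) : ℤ)) := by
  rw [← exp_nsmul]
  congr 1
  push_cast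
  ring

variable {v} {p : ℕ} {ζu : kˣ} {e : ℕ}

theorem val_zeta (hp : p ≠ 0) (hζ1 : ζu ^ p = 1) : v (ζu : k) = 1 := by
  have h : v ((ζu ^ p : kˣ) : k) = 1 := by rw [hζ1]; simp
  rw [Units.val_pow_eq_pow_val, map_pow] at h
  exact (pow_eq_one_iff.mp h).resolve_right hp

/-- step (c) -/
theorem U0_inf_comap_eq (hp : p ≠ 0) (hζ1 : ζu ^ p = 1) (he : v (p : k) = exp (-(e : ℤ)))
    (hA3 : ∀ y : k, v (y ^ p - 1) < v (p : k) ^ 2 → ∃ i < p, v (y - (ζu : k) ^ i) < v (p : k))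
    (hA4 : ∀ y : k, v (y - (ζu : k) ^ 0) < v (p : k) → v (y ^ p - 1) < v (p : k) ^ 2) :
    U0 v ⊓ (UU v (2 * e)).comap (powMonoidHom p) = Subgroup.zpowers ζu ⊔ UU v e := by
  have hvζ : v (ζu : k) = 1 := val_zeta hp hζ1
  apply le_antisymm
  · rintro x ⟨-, hx⟩
    have hx' : v (((x ^ p : kˣ) : k) - 1) < exp (-((2 * e : ℕ) : ℤ)) := hx
    rw [Units.val_pow_eq_pow_val, ← exp_sq, ← he] at hx'
    obtain ⟨i, -, hi⟩ := hA3 x hx'
    refine Subgroup.mem_sup.mpr ⟨ζu ^ i, Subgroup.npow_mem_zpowers ζu i, (ζu ^ i)⁻¹ * x, ?_,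
      mul_inv_cancel_left _ _⟩
    rw [mem_UU, ← he]
    have e1 : (((ζu ^ i)⁻¹ * x : kˣ) : k) - 1 = ((ζu : k) ^ i)⁻¹ * ((x : k) - (ζu : k) ^ i) := by
      have : (ζu : k) ^ i ≠ 0 := pow_ne_zero _ ζu.ne_zero
      push_cast
      field_simp
    rw [e1, map_mul, map_inv₀, map_pow, hvζ, one_pow, inv_one, one_mul]
    exact hi
  · apply sup_le
    · rw [Subgroup.zpowers_le]
      refine ⟨hvζ, ?_⟩
      show ζu ^ p ∈ UU v (2 * e)
      rw [hζ1]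
      exact one_mem _
    · intro x hx
      refine ⟨UU_le_U0 v e hx, ?_⟩
      show v (((x ^ p : kˣ) : k) - 1) < exp (-((2 * e : ℕ) : ℤ))
      rw [Units.val_pow_eq_pow_val, ← exp_sq, ← he]
      apply hA4
      rw [pow_zero, he]
      exact hx

/-- step (d), the roots of unity are not congruent to `1` -/
theorem UU_inf_zpowers_eq_bot (hp : 0 < p) (hζ1 : ζu ^ p = 1) (he : v (p : k) = exp (-(e : ℤ)))
    (hA2 : ∀ i : ℕ, ¬ i ≡ 0 [MOD p] → v (p : k) ≤ v ((ζu : k) ^ i - (ζu : k) ^ 0)) :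
    UU v e ⊓ Subgroup.zpowers ζu = ⊥ := by
  rw [eq_bot_iff]
  rintro x ⟨hx1, hx2⟩
  have hfo : IsOfFinOrder ζu := isOfFinOrder_iff_pow_eq_one.mpr ⟨p, hp, hζ1⟩
  obtain ⟨i, rfl⟩ := Submonoid.mem_powers_iff _ _ |>.mp (hfo.mem_powers_iff_mem_zpowers.mpr hx2)
  rw [Subgroup.mem_bot]
  by_contra hne
  have hi : ¬ i ≡ 0 [MOD p] := by
    intro h
    obtain ⟨c, rfl⟩ := (Nat.modEq_zero_iff_dvd.mp h)
    exact hne (by rw [pow_mul, hζ1, one_pow])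
  have h1 := hA2 i hi
  have h2 : v (((ζu ^ i : kˣ) : k) - 1) < exp (-(e : ℤ)) := hx1
  rw [Units.val_pow_eq_pow_val, ← he] at h2
  rw [pow_zero] at h1
  exact absurd h2 (not_lt.mpr h1)

/-- the core of node G2-B6 -/
theorem relIndex_core (hp : p.Prime) (hζ : orderOf ζu = p) (he : v (p : k) = exp (-(e : ℤ)))
    (q : ℕ)
    (hA2 : ∀ i : ℕ, ¬ i ≡ 0 [MOD p] → v (p : k) ≤ v ((ζu : k) ^ i - (ζu : k) ^ 0))
    (hA3 : ∀ y : k, v (y ^ p - 1) < v (p : k) ^ 2 → ∃ i < p, v (y - (ζu : k) ^ i) < v (p : k))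
    (hA4 : ∀ y : k, v (y - (ζu : k) ^ 0) < v (p : k) → v (y ^ p - 1) < v (p : k) ^ 2)
    (hB4 : ((U0 v).map (powMonoidHom p) ⊔ UU v (2 * e)).relIndex (U0 v) =
      (UU v (2 * e)).relIndex (U0 v ⊓ (UU v (2 * e)).comap (powMonoidHom p)))
    (hq : (UU v (2 * e)).relIndex (UU v e) = q ^ e) :
    (pwk k p ⊔ UU v (2 * e)).relIndex (U0 v) = p * q ^ e := by
  have hζ1 : ζu ^ p = 1 := by rw [← hζ]; exact pow_orderOf_eq_one ζu
  rw [← Subgroup.inf_relIndex_right, pwk_sup_UU_inf_U0 v hp.ne_zero, hB4,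
    U0_inf_comap_eq hp.ne_zero hζ1 he hA3 hA4,
    ← Subgroup.relIndex_mul_relIndex (UU v (2 * e)) (UU v e) (Subgroup.zpowers ζu ⊔ UU v e)
      (UU_antitone v (by omega)) le_sup_right,
    hq, Subgroup.relIndex_sup_right, ← Subgroup.inf_relIndex_right,
    UU_inf_zpowers_eq_bot hp.pos hζ1 he hA2, Subgroup.relIndex_bot_left, Nat.card_zpowers, hζ,
    mul_comm]

end LocalIndex

end Fermat.Agent.S55.NIT.Inst
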