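/-
S55 / NIT / Inst / G2-F1 : the Kummer algebra `Ab K p b = K[X]/(X^p - b)` is a Kummer extension
of number fields when `b` is not a `p`-th power.
-/
import Fermat.Agent.S55.NIT.Inst.Defs
import Fermat.Agent.S55.NIT.Assembly

set_option autoImplicit false
set_option linter.unusedSectionVars false

namespace Fermat.Agent.S55.NIT.Inst

open IsDedekindDomain NumberField WithZero Polynomial

variable {K : Type*} [Field K] [NumberField K]

theorem irreducible_X_pow_sub_C {p : ℕ} (hp : p.Prime) {b : Kˣ} (hb : ∀ c : Kˣ, c ^ p ≠ b) :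
    Irreducible (X ^ p - C (b : K)) := by
  refine X_pow_sub_C_irreducible_of_prime hp fun c hc => ?_
  have hc0 : c ≠ 0 := by
    rintro rfl
    rw [zero_pow hp.ne_zero] at hc
    exact b.ne_zero hc.symm
  exact hb (Units.mk0 c hc0) (Units.ext (by simpa using hc))

theorem monic_Ab {p : ℕ} (hp : p ≠ 0) (b : Kˣ) : (X ^ p - C (b : K)).Monic :=
  Polynomial.monic_X_pow_sub_C _ hp

theorem finite_Ab {p : ℕ} (hp : p ≠ 0) (b : Kˣ) : Module.Finite K (Ab K p b) :=
  (monic_Ab hp b).finite_adjoinRoot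

theorem finrank_Ab {p : ℕ} (hp : p ≠ 0) (b : Kˣ) : Module.finrank K (Ab K p b) = p := by
  have h0 : (X ^ p - C (b : K)) ≠ 0 := (monic_Ab hp b).ne_zero
  rw [(AdjoinRoot.powerBasis h0).finrank, AdjoinRoot.powerBasis_dim, natDegree_X_pow_sub_C]

theorem numberField_Ab {p : ℕ} (hp : p ≠ 0) (b : Kˣ) [Fact (Irreducible (X ^ p - C (b : K)))] :
    NumberField (Ab K p b) := by
  have := finite_Ab hp b
  exact NumberField.of_module_finite K (Ab K p b)

theorem root_pow_Ab {p : ℕ} (b : Kˣ) :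
    (AdjoinRoot.root (X ^ p - C (b : K))) ^ p = algebraMap K (Ab K p b) (b : K) :=
  root_X_pow_sub_C_pow p (b : K)

theorem kum_Ab {p : ℕ} (hp : p.Prime) (hp2 : p ≠ 2) {ζ : K} (hζ : IsPrimitiveRoot ζ p)
    (b : Kˣ) [H : Fact (Irreducible (X ^ p - C (b : K)))] [NumberField (Ab K p b)] :
    Kum K (Ab K p b) p where
  prime := hp
  odd := hp2
  galois := by
    have hne : (primitiveRoots p K).Nonempty := ⟨ζ, (mem_primitiveRoots hp.pos).2 hζ⟩
    have := isSplittingField_AdjoinRoot_X_pow_sub_C hne H.out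
    exact isGalois_of_isSplittingField_X_pow_sub_C hne H.out (Ab K p b)
  deg := finrank_Ab hp.ne_zero b
  zeta := ⟨ζ, hζ⟩

end Fermat.Agent.S55.NIT.Inst
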