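/-
S55 / NIT / Inst / G2-F2, G2-F3 (task 1210, helper198): in the Kummer algebra
`Ab K p b = K[X]/(X^p - b)`, `p`-th powers of `Kˣ` are norms, and `b` itself is a norm for `p` odd.
-/
import Fermat.Agent.S55.NIT.Inst.Model

set_option autoImplicit false
set_option linter.unusedSectionVars false

namespace Fermat.Agent.S55.NIT.Inst

open IsDedekindDomain NumberField WithZero Polynomial

variable {K : Type*} [Field K] [NumberField K]

/-- G2-F2 (file `ModelNorm.lean`). -/
theorem pw_le_nrmA {p : ℕ} (hp : p ≠ 0) (b : Kˣ) : pw K p ≤ nrmA K (Ab K p b) := by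
  rintro _ ⟨c, rfl⟩
  refine ⟨Units.map (algebraMap K (Ab K p b) : K →* Ab K p b) c, Units.ext ?_⟩
  change Algebra.norm K (algebraMap K (Ab K p b) (c : K)) = ((c ^ p : Kˣ) : K)
  rw [Algebra.norm_algebraMap, finrank_Ab hp b, Units.val_pow_eq_pow_val]

/-- the norm of the root of `X ^ p - b`. -/
theorem norm_root_Ab {p : ℕ} (hp : Odd p) (b : Kˣ) :
    Algebra.norm K (AdjoinRoot.root (X ^ p - C (b : K))) = (b : K) := by
  have hp0 : p ≠ 0 := by
    rintro rfl
    simp at hp
  have hm := monic_Ab hp0 b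
  have h1 := Algebra.PowerBasis.norm_gen_eq_coeff_zero_minpoly (AdjoinRoot.powerBasis hm.ne_zero)
  rw [AdjoinRoot.minpoly_powerBasis_gen_of_monic hm, AdjoinRoot.powerBasis_gen,
    AdjoinRoot.powerBasis_dim, natDegree_X_pow_sub_C, hp.neg_one_pow] at h1
  rw [h1]
  simp [hp0.symm]

/-- G2-F3 (file `ModelNorm.lean`). -/
theorem self_mem_nrmA {p : ℕ} (hp : Odd p) (b : Kˣ) : b ∈ nrmA K (Ab K p b) := by
  have hp0 : p ≠ 0 := by
    rintro rfl
    simp at hp
  have hu : IsUnit (AdjoinRoot.root (X ^ p - C (b : K))) := by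
    rw [← isUnit_pow_iff hp0, root_pow_Ab]
    exact b.isUnit.map _
  obtain ⟨u, hu⟩ := hu
  refine ⟨u, Units.ext ?_⟩
  change Algebra.norm K (u : Ab K p b) = (b : K)
  rw [hu, norm_root_Ab hp b]

end Fermat.Agent.S55.NIT.Inst
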