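import Fermat.Agent.S55.NIT.Inst.Defs
import Mathlib.NumberTheory.RamificationInertia.Valuation

/-!
# S55 / NIT / Inst : extension of valuations (NIT-G2-E0)

For places `w ∣ v` of number fields `L / K`, the valuation of `w` restricted to `K` is a
positive power of the valuation of `v`.
-/

namespace Fermat.Agent.S55.NIT.Inst

open IsDedekindDomain NumberField WithZero Polynomial

variable {K : Type*} [Field K] [NumberField K] {L : Type*} [Field L] [NumberField L] [Algebra K L]

theorem exists_val_algebraMap {v : Pl K} {w : Pl L} (h : Above v w) :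
    ∃ e : ℕ, 0 < e ∧ ∀ x : K, w.valuation L (algebraMap K L x) = v.valuation K x ^ e := by
  have : w.asIdeal.LiesOver v.asIdeal := ⟨h.symm⟩
  refine ⟨v.asIdeal.ramificationIdx' w.asIdeal, Nat.pos_of_ne_zero ?_, fun x => ?_⟩
  · exact Ideal.IsDedekindDomain.ramificationIdx'_ne_zero_of_liesOver w.asIdeal v.ne_bot
  · exact (IsDedekindDomain.HeightOneSpectrum.valuation_liesOver L v w x).symm

end Fermat.Agent.S55.NIT.Inst
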