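/-
S55 / NIT / Inst, node G2-D2: multiplicative weak approximation from the additive one (node D1).
-/
import Fermat.Agent.S55.NIT.Inst.Defs
import Fermat.Agent.S55.NIT.Inst.WeakApprox

set_option autoImplicit false
set_option linter.unusedSectionVars false

namespace Fermat.Agent.S55.NIT.Inst

open IsDedekindDomain NumberField WithZero Polynomial

section NF

variable {K : Type*} [Field K] [NumberField K]

/-- `weak_approx_units` from the additive weak approximation statement. -/
theorem weak_approx_units_of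
    (hD1 : ∀ (T : Finset (Pl K)) (x : Pl K → K) (n : ℕ),
      ∃ y : K, ∀ v ∈ T, v.valuation K (y - x v) < exp (-(n : ℤ)))
    (T : Finset (Pl K)) (x : Pl K → Kˣ) (n : ℕ) :
    ∃ y : Kˣ, ∀ v ∈ T, y / x v ∈ pu v n := by
  classical
  rcases T.eq_empty_or_nonempty with rfl | ⟨v₀, hv₀⟩
  · exact ⟨1, by simp⟩
  set m : Pl K → ℤ := fun v => log (v.valuation K (x v : K)) with hm
  have hxne : ∀ v : Pl K, v.valuation K (x v : K) ≠ 0 := fun v =>
    (Valuation.ne_zero_iff _).2 (x v).ne_zero
  have hxm : ∀ v : Pl K, v.valuation K (x v : K) = exp (m v) := fun v => (exp_log (hxne v)).symm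
  set N : ℕ := T.sup (fun v => ((n : ℤ) - m v).toNat) with hN
  have hNv : ∀ v ∈ T, (n : ℤ) - m v ≤ N := by
    intro v hv
    have h1 : ((n : ℤ) - m v).toNat ≤ N := Finset.le_sup (f := fun v => ((n : ℤ) - m v).toNat) hv
    have h2 : (n : ℤ) - m v ≤ (((n : ℤ) - m v).toNat : ℤ) := Int.self_le_toNat _
    exact h2.trans (by exact_mod_cast h1)
  obtain ⟨y0, hy0⟩ := hD1 T (fun v => (x v : K)) N
  have hlt : ∀ v ∈ T, v.valuation K (y0 - x v) < exp (m v - n) := by
    intro v hv
    refine lt_of_lt_of_le (hy0 v hv) ?_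
    rw [exp_le_exp]
    have := hNv v hv
    omega
  have hy0ne : y0 ≠ 0 := by
    rintro rfl
    have h := hlt v₀ hv₀
    rw [zero_sub, Valuation.map_neg, hxm, exp_lt_exp] at h
    omega
  refine ⟨Units.mk0 y0 hy0ne, fun v hv => ?_⟩
  rw [pu_eq_UU, mem_UU]
  have e : ((Units.mk0 y0 hy0ne / x v : Kˣ) : K) - 1 = (y0 - x v) / (x v : K) := by
    have : (x v : K) ≠ 0 := (x v).ne_zero
    rw [Units.val_div_eq_div_val, Units.val_mk0]
    field_simp
  rw [e, map_div₀, hxm, div_lt_iff₀ (by simp), ← exp_add]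
  have h := hlt v hv
  have e2 : -(n : ℤ) + m v = m v - n := by ring
  rw [e2]
  exact h

/-- G2-D2: multiplicative weak approximation. -/
theorem weak_approx_units (T : Finset (Pl K)) (x : Pl K → Kˣ) (n : ℕ) :
    ∃ y : Kˣ, ∀ v ∈ T, y / x v ∈ pu v n :=
  weak_approx_units_of weak_approx T x n

end NF

end Fermat.Agent.S55.NIT.Inst
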