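/-
S55 / NIT / Inst, node G2-E2: at a split place every element of `Kˣ` is a local norm.
-/
import Fermat.Agent.S55.NIT.Inst.Defs
import Fermat.Agent.S55.NIT.Assembly
import Fermat.Agent.S55.NIT.FI.GaloisVal
import Fermat.Agent.S55.NIT.Inst.WeakApprox
import Fermat.Agent.S55.NIT.Inst.WeakApproxUnits
import Fermat.Agent.S55.NIT.Inst.ValExt

set_option autoImplicit false
set_option linter.unusedSectionVars false

namespace Fermat.Agent.S55.NIT.Inst

open IsDedekindDomain NumberField WithZero Polynomial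

section Kummer

variable {K : Type*} [Field K] [NumberField K] {L : Type*} [Field L] [NumberField L] [Algebra K L]

namespace NormSplitAux

/-- two places with the same valuation are equal -/
theorem pl_ext {w w' : Pl L} (h : ∀ y : L, w'.valuation L y = w.valuation L y) : w' = w := by
  ext x
  rw [← HeightOneSpectrum.valuation_lt_one_iff_mem (K := L),
    ← HeightOneSpectrum.valuation_lt_one_iff_mem (K := L), h]

/-- the stabiliser of the valuation `w` -/
def stab (K : Type*) [Field K] [NumberField K] {L : Type*} [Field L] [NumberField L] [Algebra K L]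
    (w : Pl L) : Subgroup (L ≃ₐ[K] L) where
  carrier := {σ | ∀ y : L, w.valuation L (σ y) = w.valuation L y}
  one_mem' := fun _ => rfl
  mul_mem' := by
    intro σ τ hσ hτ y
    rw [AlgEquiv.mul_apply, hσ, hτ]
  inv_mem' := by
    intro σ hσ y
    have := hσ (σ⁻¹ y)
    rw [← this]
    congr 1
    exact σ.apply_symm_apply y

theorem stab_eq_bot {p : ℕ} (h : Kum K L p) {v : Pl K} {w w' : Pl L} (hne : w ≠ w')
    (hw : Above v w) (hw' : Above v w') : stab K w = ⊥ := by
  have := h.galois
  have hcard : Nat.card (L ≃ₐ[K] L) = p := by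
    rw [IsGalois.card_aut_eq_finrank, h.deg]
  have : Fact (Nat.card (L ≃ₐ[K] L)).Prime := ⟨hcard ▸ h.prime⟩
  rcases Subgroup.eq_bot_or_eq_top_of_prime_card (stab K w) with h0 | h0
  · exact h0
  · exfalso
    have hu : w.under (𝓞 K) = w'.under (𝓞 K) := by
      ext1
      exact hw.trans hw'.symm
    obtain ⟨σ, hσ⟩ := FI.exists_galois_of_under_eq K L w w' hu
    apply hne
    refine (pl_ext fun y => ?_).symm
    rw [hσ]
    have hmem : σ ∈ stab K w := h0 ▸ Subgroup.mem_top σ
    exact hmem y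

end NormSplitAux

open NormSplitAux in
/-- G2-E2 with the nodes D2 (for `L`) and E0 as hypotheses. -/
theorem locNorm_eq_top_of_split_aux {p : ℕ} (h : Kum K L p) {v : Pl K} (hs : Split K L v)
    (hD2 : ∀ (T : Finset (Pl L)) (x : Pl L → Lˣ) (n : ℕ), ∃ y : Lˣ, ∀ u ∈ T, y / x u ∈ pu u n)
    (hE0 : ∀ w : Pl L, Above v w →
      ∃ e : ℕ, 0 < e ∧ ∀ x : K, w.valuation L (algebraMap K L x) = v.valuation K x ^ e) :
    locNorm K L v = ⊤ := by
  classical
  have := h.galois
  obtain ⟨w, w', hne, hw, hw'⟩ := hs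
  have hstab := stab_eq_bot h hne hw hw'
  rw [eq_top_iff]
  intro x _
  rw [mem_locNorm]
  intro n
  obtain ⟨e, he, hval⟩ := hE0 w hw
  choose W hWu hW using fun σ : L ≃ₐ[K] L => FI.exists_valuation_comp K L σ w
  have hW1 : W 1 = w := pl_ext fun y => hW 1 y
  have hWne : ∀ σ : L ≃ₐ[K] L, σ ≠ 1 → W σ ≠ w := by
    intro σ hσ hcon
    apply hσ
    have hmem : σ ∈ stab K w := fun y => by rw [← hW σ y, hcon]
    rw [hstab] at hmem
    exact Subgroup.mem_bot.1 hmem
  set xL : Lˣ := Units.map (algebraMap K L : K →* L) x with hxL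
  obtain ⟨y, hy⟩ := hD2 (Finset.univ.image W) (fun u => if u = w then xL else 1) (n * e)
  refine ⟨y, ?_⟩
  -- the conjugates of `y`
  have hconj : ∀ σ : L ≃ₐ[K] L, σ ≠ 1 →
      Units.map (σ : L →* L) y ∈ pu w (n * e) := by
    intro σ hσ
    have h1 := hy (W σ) (Finset.mem_image_of_mem _ (Finset.mem_univ σ))
    rw [if_neg (hWne σ hσ), div_one, mem_pu, hW] at h1
    rw [mem_pu]
    rw [map_sub, map_one] at h1
    exact h1
  have hy1 : y / xL ∈ pu w (n * e) := by
    have h1 := hy (W 1) (Finset.mem_image_of_mem _ (Finset.mem_univ 1))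
    rw [hW1, if_pos rfl] at h1
    exact h1
  -- the norm as a product
  set Ny : Kˣ := Units.map (Algebra.norm K : L →* K) y with hNy
  have hprod : Units.map (algebraMap K L : K →* L) Ny =
      ∏ σ : L ≃ₐ[K] L, Units.map (σ : L →* L) y := by
    ext
    rw [Units.coe_prod]
    exact Algebra.norm_eq_prod_automorphisms K (y : L)
  have hmem : Units.map (algebraMap K L : K →* L) (Ny / x) ∈ pu w (n * e) := by
    rw [_root_.map_div, hprod, ← Finset.mul_prod_erase Finset.univ _ (Finset.mem_univ (1 : L ≃ₐ[K] L))]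
    have h1 : Units.map (((1 : L ≃ₐ[K] L) : L ≃ₐ[K] L) : L →* L) y = y := by
      ext; rfl
    rw [h1, mul_div_right_comm]
    refine Subgroup.mul_mem _ hy1 (Subgroup.prod_mem _ fun σ hσ => ?_)
    exact hconj σ (Finset.ne_of_mem_erase hσ)
  have hfin : Ny / x ∈ pu v n := by
    rw [mem_pu] at hmem ⊢
    have h2 : ((Units.map (algebraMap K L : K →* L) (Ny / x) : Lˣ) : L) - 1 =
        algebraMap K L (((Ny / x : Kˣ) : K) - 1) := by
      rw [map_sub, map_one]; rfl
    rw [h2, hval] at hmem
    by_contra hcon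
    rw [not_lt] at hcon
    have h3 : exp (-((n * e : ℕ) : ℤ)) ≤ v.valuation K (((Ny / x : Kˣ) : K) - 1) ^ e := by
      calc exp (-((n * e : ℕ) : ℤ)) = exp (-(n : ℤ)) ^ e := by
            rw [← exp_nsmul]; congr 1; push_cast; simp [mul_comm]
        _ ≤ _ := pow_le_pow_left' hcon e
    exact absurd hmem (not_lt.2 h3)
  have := (pu v n).inv_mem hfin
  rwa [inv_div] at this

/-- G2-E2 (file `NormSplit.lean`; uses D2 for `L`, E0, `FI.exists_valuation_comp`,
`FI.exists_galois_of_under_eq`). -/
theorem locNorm_eq_top_of_split {p : ℕ} (h : Kum K L p) {v : Pl K} (hs : Split K L v) :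
    locNorm K L v = ⊤ :=
  locNorm_eq_top_of_split_aux h hs (weak_approx_units_of weak_approx)
    (fun _ hw => exists_val_algebraMap hw)

end Kummer

end Fermat.Agent.S55.NIT.Inst
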