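/-
S55 / NIT / Inst, node G2-C1: `[O_(v) : m_(v)] = absNorm v` for a number field.
-/
import Fermat.Agent.S55.NIT.Inst.Defs

set_option autoImplicit false

namespace Fermat.Agent.S55.NIT.Inst

open IsDedekindDomain NumberField WithZero Polynomial

variable {K : Type*} [Field K] [NumberField K]

theorem comap_ball_one (v : Pl K) :
    (ball (v.valuation K) 1).comap (algebraMap (𝓞 K) K).toAddMonoidHom =
      Submodule.toAddSubgroup v.asIdeal := by
  ext a
  rw [AddSubgroup.mem_comap, mem_ball, Submodule.mem_toAddSubgroup,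
    ← HeightOneSpectrum.valuation_lt_one_iff_mem (K := K)]
  have h := lt_exp_iff_le (y := v.valuation K (algebraMap (𝓞 K) K a)) (n := 0)
  rw [exp_zero, zero_sub] at h
  exact h.symm

theorem range_sup_ball_one (v : Pl K) :
    (algebraMap (𝓞 K) K).toAddMonoidHom.range ⊔ ball (v.valuation K) 1 =
      ball (v.valuation K) 0 := by
  apply le_antisymm
  · rw [sup_le_iff]
    constructor
    · rintro _ ⟨a, rfl⟩
      rw [mem_ball, neg_zero, exp_zero]
      exact HeightOneSpectrum.valuation_le_one v a
    · intro x hx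
      rw [mem_ball] at hx ⊢
      refine hx.trans ?_
      rw [exp_le_exp]; omega
  · intro x hx
    rw [mem_ball, neg_zero, exp_zero] at hx
    obtain ⟨a, ha⟩ := HeightOneSpectrum.exists_valuation_sub_lt_of_integer v hx 1
    rw [Units.val_one] at ha
    have h1 : x - algebraMap (𝓞 K) K a ∈ ball (v.valuation K) 1 := by
      rw [mem_ball, Valuation.map_sub_swap]
      have h := lt_exp_iff_le (y := v.valuation K (algebraMap (𝓞 K) K a - x)) (n := 0)
      rw [exp_zero, zero_sub] at h
      exact h.mp ha
    have h2 : x = algebraMap (𝓞 K) K a + (x - algebraMap (𝓞 K) K a) := by ring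
    rw [h2]
    exact add_mem (AddSubgroup.mem_sup_left ⟨a, rfl⟩) (AddSubgroup.mem_sup_right h1)

/-- G2-C1 (file `ResidueCard.lean`). -/
theorem relIndex_ball_eq_absNorm (v : Pl K) :
    (ball (v.valuation K) 1).relIndex (ball (v.valuation K) 0) = Ideal.absNorm v.asIdeal := by
  rw [← range_sup_ball_one, AddSubgroup.relIndex_sup_right, ← AddSubgroup.index_comap,
    comap_ball_one, Ideal.absNorm_apply, Submodule.cardQuot_apply]
  rfl

end Fermat.Agent.S55.NIT.Inst
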