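/-
S55 / NIT / Inst / G2-C2 : the valuation of a natural number at a finite place.
Owner: helper234.
-/
import Fermat.Agent.S55.NIT.Inst.Defs

set_option autoImplicit false
set_option linter.unusedSectionVars false

namespace Fermat.Agent.S55.NIT.Inst

open IsDedekindDomain NumberField WithZero Polynomial

variable {K : Type*} [Field K] [NumberField K]

/-- G2-C2 (file `ValP.lean`). -/
theorem exists_val_natCast (v : Pl K) {p : ℕ} (hp : p ≠ 0) :
    ∃ e : ℕ, v.valuation K (p : K) = exp (-(e : ℤ)) ∧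
      Ideal.absNorm (v.maxPowDividing (Ideal.span {(p : 𝓞 K)})) = Ideal.absNorm v.asIdeal ^ e ∧
      (e = 0 ↔ ¬ SI.Over p K v) := by
  have hp0 : (p : 𝓞 K) ≠ 0 := Nat.cast_ne_zero.2 hp
  have hval : v.valuation K (p : K) = exp (-(((Associates.mk v.asIdeal).count
      (Associates.mk (Ideal.span {(p : 𝓞 K)})).factors : ℕ) : ℤ)) := by
    have hc : (p : K) = algebraMap (𝓞 K) K (p : 𝓞 K) := (map_natCast (algebraMap (𝓞 K) K) p).symm
    rw [← v.intValuation_if_neg hp0, hc]
    exact HeightOneSpectrum.valuation_of_algebraMap (K := K) v (p : 𝓞 K)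
  refine ⟨(Associates.mk v.asIdeal).count (Associates.mk (Ideal.span {(p : 𝓞 K)})).factors,
    hval, ?_, ?_⟩
  · rw [HeightOneSpectrum.maxPowDividing, map_pow]
  · have h1 : v.valuation K (p : K) = 1 ↔ ¬ SI.Over p K v := by
      have := HeightOneSpectrum.valuation_eq_one_iff_notMem (K := K) (v := v) (r := (p : 𝓞 K))
      rw [map_natCast (algebraMap (𝓞 K) K) p] at this
      exact this
    rw [← h1, hval, ← exp_zero, exp_inj]
    omega

end Fermat.Agent.S55.NIT.Inst
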