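/-
S55 / NIT / Inst : nodes G2-A2, G2-A3.  For an arbitrary valuation `v` on a field containing a
primitive `p`-th root of unity: distinct `p`-th roots of unity are at distance `≥ v p`, and an
element whose `p`-th power is close to `1` is close to a `p`-th root of unity.
-/
import Fermat.Agent.S55.NIT.Inst.Defs

set_option autoImplicit false
set_option linter.unusedSectionVars false

namespace Fermat.Agent.S55.NIT.Inst

open IsDedekindDomain NumberField WithZero Polynomial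

section General

variable {k : Type*} [Field k] {Γ₀ : Type*} [LinearOrderedCommGroupWithZero Γ₀]
  (v : Valuation k Γ₀)

open scoped Classical in
/-- `∏_{μ' ≠ μ} (μ - μ') = p μ^(p-1)` over the `p`-th roots of unity. -/
theorem prod_erase_nthRoots_sub {p : ℕ} (hp : 0 < p) {ζ : k} (hζ : IsPrimitiveRoot ζ p) {μ : k}
    (hμ : μ ∈ nthRootsFinset p (1 : k)) :
    ∏ μ' ∈ (nthRootsFinset p (1 : k)).erase μ, (μ - μ') = (p : k) * μ ^ (p - 1) := by
  have h := X_pow_sub_one_eq_prod hp hζ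
  rw [← Finset.mul_prod_erase _ _ hμ] at h
  have h' := congrArg (fun q : k[X] => (derivative q).eval μ) h
  simp only [derivative_sub, derivative_X_pow, derivative_one, sub_zero, derivative_mul,
    derivative_X, derivative_C, one_mul, eval_add, eval_mul, eval_sub, eval_X, eval_C, sub_self,
    zero_mul, add_zero, eval_pow, eval_prod] at h'
  exact h'.symm

theorem val_eq_one_of_mem_nthRoots {p : ℕ} (hp : 0 < p) {μ : k}
    (hμ : μ ∈ nthRootsFinset p (1 : k)) : v μ = 1 := by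
  have h : μ ^ p = 1 := (mem_nthRootsFinset hp 1).1 hμ
  have h' : v μ ^ p = 1 := by rw [← map_pow, h, map_one]
  exact (pow_eq_one_iff_of_nonneg zero_le hp.ne').1 h'

open scoped Classical in
theorem val_prod_erase_nthRoots_sub {p : ℕ} (hp : 0 < p) {ζ : k} (hζ : IsPrimitiveRoot ζ p) {μ : k}
    (hμ : μ ∈ nthRootsFinset p (1 : k)) :
    ∏ μ' ∈ (nthRootsFinset p (1 : k)).erase μ, v (μ - μ') = v (p : k) := by
  rw [← map_prod, prod_erase_nthRoots_sub hp hζ hμ, map_mul, map_pow,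
    val_eq_one_of_mem_nthRoots v hp hμ, one_pow, mul_one]

theorem val_le_val_sub_of_mem_nthRoots {p : ℕ} (hp : 0 < p) {ζ : k} (hζ : IsPrimitiveRoot ζ p)
    {μ μ' : k} (hμ : μ ∈ nthRootsFinset p (1 : k)) (hμ' : μ' ∈ nthRootsFinset p (1 : k))
    (hne : μ ≠ μ') : v (p : k) ≤ v (μ - μ') := by
  classical
  rw [← val_prod_erase_nthRoots_sub v hp hζ hμ,
    ← Finset.mul_prod_erase _ _ (Finset.mem_erase.2 ⟨hne.symm, hμ'⟩)]
  refine mul_le_of_le_one_right' (Finset.prod_le_one' fun x hx => ?_)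
  have hx' : x ∈ nthRootsFinset p (1 : k) := Finset.mem_of_mem_erase (Finset.mem_of_mem_erase hx)
  refine le_trans (Valuation.map_sub _ _ _) (max_le ?_ ?_)
  · rw [val_eq_one_of_mem_nthRoots v hp hμ]
  · rw [val_eq_one_of_mem_nthRoots v hp hx']

/-- G2-A2 (file `Zeta.lean`). -/
theorem val_le_val_zeta_sub {p : ℕ} (hp : p.Prime) {ζ : k} (hζ : IsPrimitiveRoot ζ p) {i j : ℕ}
    (hij : ¬ i ≡ j [MOD p]) : v (p : k) ≤ v (ζ ^ i - ζ ^ j) := by
  have hmem : ∀ i : ℕ, ζ ^ i ∈ nthRootsFinset p (1 : k) := fun i => by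
    rw [mem_nthRootsFinset hp.pos, ← pow_mul, mul_comm, pow_mul, hζ.pow_eq_one, one_pow]
  refine val_le_val_sub_of_mem_nthRoots v hp.pos hζ (hmem i) (hmem j) fun h => hij ?_
  have h' : ζ ^ (i % p) = ζ ^ (j % p) := by
    rw [← pow_eq_pow_mod i hζ.pow_eq_one, ← pow_eq_pow_mod j hζ.pow_eq_one]
    exact h
  exact hζ.pow_inj (Nat.mod_lt _ hp.pos) (Nat.mod_lt _ hp.pos) h'

/-- G2-A3 (file `Zeta.lean`). -/
theorem exists_val_sub_zeta_lt {p : ℕ} (hp : p.Prime) {ζ : k} (hζ : IsPrimitiveRoot ζ p) {y : k}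
    (hy : v (y ^ p - 1) < v (p : k) ^ 2) : ∃ i < p, v (y - ζ ^ i) < v (p : k) := by
  classical
  have : NeZero p := ⟨hp.ne_zero⟩
  have hne : (nthRootsFinset p (1 : k)).Nonempty :=
    ⟨1, by rw [mem_nthRootsFinset hp.pos, one_pow]⟩
  obtain ⟨μ, hμ, hmin⟩ := Finset.exists_min_image _ (fun μ : k => v (y - μ)) hne
  obtain ⟨i, hi, rfl⟩ := hζ.eq_pow_of_pow_eq_one ((mem_nthRootsFinset hp.pos 1).1 hμ)
  refine ⟨i, hi, ?_⟩
  have hprod : y ^ p - 1 = ∏ μ' ∈ nthRootsFinset p (1 : k), (y - μ') := by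
    have h := congrArg (fun q : k[X] => q.eval y) (X_pow_sub_one_eq_prod hp.pos hζ)
    simpa [eval_prod] using h
  have h1 : v (p : k) ≤ ∏ μ' ∈ (nthRootsFinset p (1 : k)).erase (ζ ^ i), v (y - μ') := by
    rw [← val_prod_erase_nthRoots_sub v hp.pos hζ hμ]
    refine Finset.prod_le_prod' fun x hx => ?_
    have hx' : x ∈ nthRootsFinset p (1 : k) := Finset.mem_of_mem_erase hx
    have e : ζ ^ i - x = (y - x) - (y - ζ ^ i) := by ring
    rw [e]
    exact le_trans (Valuation.map_sub _ _ _) (max_le le_rfl (hmin x hx'))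
  have h2 : v (y - ζ ^ i) * v (p : k) < v (p : k) * v (p : k) := by
    refine lt_of_le_of_lt ?_ (by rwa [sq] at hy)
    rw [hprod, map_prod, ← Finset.mul_prod_erase _ _ hμ]
    gcongr
  exact lt_of_mul_lt_mul_right' h2

end General

end Fermat.Agent.S55.NIT.Inst
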