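/-
S55 / NIT / Inst / G2-E1 : if `b` is a local `p`-th power at `v` (and not a global one) then `v` has
two places in `L = K(b^(1/p))`.  Owner: helper229.
-/
import Fermat.Agent.S55.NIT.Inst.Defs
import Fermat.Agent.S55.NIT.Assembly
import Fermat.Agent.S55.NIT.Inst.Zeta
import Fermat.Agent.S55.NIT.Inst.ValExt
import Fermat.Agent.S55.NIT.Inst.ValP
import Fermat.Agent.S55.NIT.FI.GaloisVal
import Fermat.Agent.S55.NIT.FI.CountAbove

set_option autoImplicit false
set_option linter.unusedSectionVars false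

namespace Fermat.Agent.S55.NIT.Inst

open IsDedekindDomain NumberField WithZero Polynomial

variable {K : Type*} [Field K] [NumberField K] {L : Type*} [Field L] [NumberField L] [Algebra K L]

/-- every place of `K` has a place of `L` above it. -/
theorem exists_above (v : Pl K) : ∃ w : Pl L, w.under (𝓞 K) = v := by
  have : v.asIdeal.IsPrime := v.isPrime
  obtain ⟨⟨Q, hQ⟩⟩ := v.asIdeal.nonempty_primesOver (S := 𝓞 L)
  rw [← FI.asIdeal_image_aboveFibre K L v] at hQ
  obtain ⟨w, hw, -⟩ := hQ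
  exact ⟨w, hw⟩

theorem above_of_under_eq {v : Pl K} {w : Pl L} (h : w.under (𝓞 K) = v) : Above v w := by
  subst h
  rfl

/-- a root of unity has valuation one. -/
theorem val_eq_one_of_pow_eq_one {k : Type*} [Field k] {Γ₀ : Type*}
    [LinearOrderedCommGroupWithZero Γ₀] (v : Valuation k Γ₀) {x : k} {n : ℕ} (hn : n ≠ 0)
    (hx : x ^ n = 1) : v x = 1 := by
  have h : v x ^ n = 1 := by rw [← map_pow, hx, map_one]
  exact (pow_eq_one_iff_of_nonneg zero_le hn).1 h

/-- G2-E1 (file `SplitOfPow.lean`; uses A2 A3 E0 and `FI.exists_valuation_comp`). -/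
theorem split_of_mem_locPow {p : ℕ} (h : Kum K L p) {b : Kˣ} {β : L}
    (hβ : β ^ p = algebraMap K L (b : K)) (hb : ∀ c : Kˣ, c ^ p ≠ b) {v : Pl K}
    (hv : b ∈ locPow K p v) : Split K L v := by
  have hp := h.prime
  have : NeZero p := ⟨hp.ne_zero⟩
  have := h.galois
  obtain ⟨ζ, hζ⟩ := h.zeta
  have hζL : IsPrimitiveRoot (algebraMap K L ζ) p :=
    hζ.map_of_injective (algebraMap K L).injective
  obtain ⟨w, hwv⟩ := exists_above (L := L) v
  have hab : Above v w := above_of_under_eq hwv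
  obtain ⟨e', he', hw⟩ := exists_val_algebraMap hab
  obtain ⟨e, he, -⟩ := exists_val_natCast v hp.ne_zero
  obtain ⟨c, hc⟩ := mem_locPow.1 hv (2 * e)
  rw [mem_pu] at hc
  -- the valuation of `p` in `L`
  have hwp : w.valuation L (p : L) = v.valuation K (p : K) ^ e' := by
    rw [← hw, map_natCast (algebraMap K L) p]
  have hβ0 : β ≠ 0 := by
    rintro rfl
    rw [zero_pow hp.ne_zero] at hβ
    exact b.ne_zero ((map_eq_zero (algebraMap K L)).1 hβ.symm)
  have hcL : algebraMap K L (c : K) ≠ 0 := (map_ne_zero (algebraMap K L)).2 c.ne_zero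
  set β' : L := β / algebraMap K L (c : K) with hβ'
  have hβ'p : β' ^ p - 1 = algebraMap K L (((b / c ^ p : Kˣ) : K) - 1) := by
    rw [hβ', div_pow, hβ, map_sub, map_one, Units.val_div_eq_div_val, Units.val_pow_eq_pow_val,
      map_div₀, map_pow]
  have hlt : w.valuation L (β' ^ p - 1) < w.valuation L (p : L) ^ 2 := by
    rw [hβ'p, hw, hwp, ← pow_mul, mul_comm e' 2, pow_mul]
    refine pow_lt_pow_left₀ ?_ zero_le he'.ne'
    rw [he, ← exp_nsmul]
    refine lt_of_lt_of_eq hc ?_
    congr 1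
    push_cast
    simp
  obtain ⟨i, -, hi⟩ := exists_val_sub_zeta_lt (w.valuation L) hp hζL hlt
  -- an automorphism moving `β`
  have hβK : β ∉ Set.range (algebraMap K L) := by
    rintro ⟨x, rfl⟩
    rw [← map_pow] at hβ
    have hx := (algebraMap K L).injective hβ
    have hx0 : x ≠ 0 := by
      rintro rfl
      exact hβ0 (map_zero _)
    exact hb (Units.mk0 x hx0) (Units.ext (by simpa using hx))
  rw [IsGalois.mem_range_algebraMap_iff_fixed] at hβK
  obtain ⟨σ, hσ⟩ := not_forall.1 hβK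
  have hpow : (σ β / β) ^ p = 1 := by
    rw [div_pow, ← map_pow, hβ, AlgEquiv.commutes, div_self]
    rw [← hβ]
    exact pow_ne_zero _ hβ0
  obtain ⟨j, -, hj⟩ := hζL.eq_pow_of_pow_eq_one hpow
  have hσβ : σ β = algebraMap K L ζ ^ j * β := by
    rw [hj, div_mul_cancel₀ _ hβ0]
  have hj1 : ¬ p ∣ j := by
    intro hdvd
    apply hσ
    rw [hσβ, (hζL.pow_eq_one_iff_dvd j).2 hdvd, one_mul]
  obtain ⟨w', hw'u, hw'⟩ := FI.exists_valuation_comp K L σ w
  refine ⟨w, w', ?_, hab, above_of_under_eq (hw'u.trans hwv)⟩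
  rintro rfl
  -- `w ∘ σ = w` leads to a contradiction
  have h1 : w.valuation L (algebraMap K L ζ ^ j * β' - algebraMap K L ζ ^ i)
      < w.valuation L (p : L) := by
    have : σ (β' - algebraMap K L ζ ^ i) = algebraMap K L ζ ^ j * β' - algebraMap K L ζ ^ i := by
      rw [map_sub, map_pow, AlgEquiv.commutes, hβ', map_div₀, AlgEquiv.commutes, hσβ, mul_div_assoc]
    rw [← this, ← hw']
    exact hi
  have h2 : w.valuation L (algebraMap K L ζ ^ j * (β' - algebraMap K L ζ ^ i))
      < w.valuation L (p : L) := by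
    rw [map_mul, map_pow, val_eq_one_of_pow_eq_one (w.valuation L) hp.ne_zero hζL.pow_eq_one,
      one_pow, one_mul]
    exact hi
  have h3 : w.valuation L (algebraMap K L ζ ^ (i + j) - algebraMap K L ζ ^ i)
      < w.valuation L (p : L) := by
    have : algebraMap K L ζ ^ (i + j) - algebraMap K L ζ ^ i =
        (algebraMap K L ζ ^ j * β' - algebraMap K L ζ ^ i) -
          algebraMap K L ζ ^ j * (β' - algebraMap K L ζ ^ i) := by
      rw [pow_add]; ring
    rw [this]
    exact lt_of_le_of_lt (Valuation.map_sub _ _ _) (max_lt h1 h2)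
  have hmod : ¬ i + j ≡ i [MOD p] := by
    intro hm
    apply hj1
    have : i + j ≡ i + 0 [MOD p] := by simpa using hm
    exact (Nat.modEq_zero_iff_dvd).1 (Nat.ModEq.add_left_cancel' i this)
  exact absurd h3 (not_lt.2 (val_le_val_zeta_sub (w.valuation L) hp hζL hmod))

end Fermat.Agent.S55.NIT.Inst
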