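/-
S55 / NIT / Inst, node G2-A1 (architect helper78, proof helper222):
`v ((1 + s) ^ p - 1 - p s) ≤ max (v p * v s ^ 2) (v s ^ p)` for any valuation.
-/
import Fermat.Agent.S55.NIT.Inst.Defs

set_option autoImplicit false
set_option linter.unusedSectionVars false

namespace Fermat.Agent.S55.NIT.Inst

section General

variable {k : Type*} [Field k] {Γ₀ : Type*} [LinearOrderedCommGroupWithZero Γ₀]
  (v : Valuation k Γ₀)

/-- Helper of G2-A1: natural numbers have valuation at most one. -/
theorem binom_val_natCast_le_one (n : ℕ) : v (n : k) ≤ 1 := by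
  induction n with
  | zero => simp
  | succ n ih =>
    rw [Nat.cast_succ]
    exact le_trans (v.map_add _ _) (max_le ih (by rw [map_one]))

/-- G2-A1 (file `Binom.lean`). -/
theorem val_one_add_pow_sub_le {p : ℕ} (hp : p.Prime) {s : k} (hs : v s ≤ 1) :
    v ((1 + s) ^ p - 1 - p * s) ≤ max (v (p : k) * v s ^ 2) (v s ^ p) := by
  obtain ⟨q, rfl⟩ : ∃ q, p = q + 2 := ⟨p - 2, by have := hp.two_le; omega⟩
  have key : (1 + s) ^ (q + 2) - 1 - ((q + 2 : ℕ) : k) * s =
      ∑ m ∈ Finset.range (q + 1), s ^ (m + 2) * (((q + 2).choose (m + 2) : ℕ) : k) := by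
    rw [add_comm 1 s, add_pow, Finset.sum_range_succ', Finset.sum_range_succ']
    simp only [one_pow, mul_one, pow_zero, Nat.choose_zero_right, Nat.cast_one, zero_add, pow_one,
      Nat.choose_one_right]
    ring
  rw [key]
  refine Valuation.map_sum_le v fun m hm => ?_
  rw [Finset.mem_range] at hm
  rw [map_mul, map_pow]
  rcases Nat.lt_or_ge m q with h | h
  · refine le_max_of_le_left ?_
    obtain ⟨c, hc⟩ := hp.dvd_choose_self (k := m + 2) (by omega) (by omega)
    rw [hc, Nat.cast_mul, map_mul, mul_comm]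
    calc v ((q + 2 : ℕ) : k) * v (c : k) * v s ^ (m + 2)
        ≤ v ((q + 2 : ℕ) : k) * 1 * v s ^ 2 := by
          refine mul_le_mul' (mul_le_mul' le_rfl (binom_val_natCast_le_one v c)) ?_
          exact pow_le_pow_right_of_le_one' hs (by omega)
      _ = v ((q + 2 : ℕ) : k) * v s ^ 2 := by rw [mul_one]
  · refine le_max_of_le_right ?_
    have hmq : m = q := by omega
    subst hmq
    rw [Nat.choose_self, Nat.cast_one, map_one, mul_one]

end General

end Fermat.Agent.S55.NIT.Inst
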