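/-
S55 / NIT / Inst, node G2-B5: `U^(2e+1) ⊆ kˣᵖ · U^(n+1)` for every `n` (successive approximation,
no completeness).  Owner: helper293.
-/
import Fermat.Agent.S55.NIT.Inst.Defs
import Fermat.Agent.S55.NIT.Inst.Binom

set_option autoImplicit false
set_option linter.unusedSectionVars false

namespace Fermat.Agent.S55.NIT.Inst

open IsDedekindDomain NumberField WithZero Polynomial

section Discrete

variable {k : Type*} [Field k] (v : Valuation k ℤᵐ⁰)

/-- One step of the successive approximation. -/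
theorem UU_le_pwk_sup_UU_succ {p : ℕ} (hp : p.Prime) {e : ℕ} (he : v (p : k) = exp (-(e : ℤ)))
    {n : ℕ} (hn : 2 * e ≤ n) : UU v n ≤ pwk k p ⊔ UU v (n + 1) := by
  intro x hx
  rw [mem_UU] at hx
  rw [Subgroup.mem_sup]
  by_cases ht : (x : k) - 1 = 0
  · refine ⟨1, one_mem _, x, ?_, one_mul x⟩
    rw [mem_UU, ht, map_zero]
    exact exp_pos
  have hp0 : (p : k) ≠ 0 := by
    intro h
    rw [h, map_zero] at he
    exact exp_ne_zero he.symm
  obtain ⟨m, hm⟩ : ∃ m : ℤ, v ((x : k) - 1) = exp (-m) :=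
    ⟨-log (v ((x : k) - 1)), by rw [neg_neg, exp_log ((Valuation.ne_zero_iff v).2 ht)]⟩
  have hmn : (n : ℤ) < m := by
    rw [hm, exp_lt_exp] at hx
    omega
  set s : k := ((x : k) - 1) / p with hs
  have hps : (p : k) * s = (x : k) - 1 := by rw [hs]; field_simp
  have hvs : v s = exp ((e : ℤ) - m) := by
    rw [hs, map_div₀, hm, he, ← exp_sub]
    congr 1
    ring
  have hvs1 : v s < 1 := by
    rw [hvs, ← exp_zero, exp_lt_exp]
    omega
  have hA := val_one_add_pow_sub_le v hp hvs1.le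
  have hr : v ((1 + s) ^ p - 1 - p * s) ≤ exp (-((n : ℤ) + 2)) := by
    refine hA.trans (max_le ?_ ?_)
    · rw [he, hvs, ← exp_nsmul, ← exp_add, exp_le_exp]
      simp only [nsmul_eq_mul, Nat.cast_ofNat]
      omega
    · calc v s ^ p ≤ v s ^ 2 := pow_le_pow_of_le_one zero_le hvs1.le hp.two_le
        _ = exp (2 * ((e : ℤ) - m)) := by
            rw [hvs, ← exp_nsmul]
            simp only [nsmul_eq_mul, Nat.cast_ofNat]
        _ ≤ _ := by
            rw [exp_le_exp]
            omega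
  have hv1s : v (1 + s) = 1 := by
    apply val_eq_one_of_lt
    rwa [add_sub_cancel_left]
  have h1s0 : (1 + s : k) ≠ 0 := by
    intro h
    rw [h, map_zero] at hv1s
    exact zero_ne_one hv1s
  set y : kˣ := Units.mk0 (1 + s) h1s0 with hy
  refine ⟨y ^ p, ⟨y, rfl⟩, (y ^ p)⁻¹ * x, ?_, by rw [mul_inv_cancel_left]⟩
  rw [mem_UU]
  have hkey : (((y ^ p)⁻¹ * x : kˣ) : k) - 1 =
      -(((1 + s) ^ p - 1 - p * s) / (1 + s) ^ p) := by
    rw [hps]
    push_cast
    rw [hy, Units.val_mk0]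
    field_simp
    ring
  rw [hkey, Valuation.map_neg, map_div₀, map_pow, hv1s, one_pow, div_one]
  refine lt_of_le_of_lt hr ?_
  rw [exp_lt_exp]
  push_cast
  omega

/-- G2-B5 (file `Stable.lean`; uses A1). -/
theorem UU_le_pwk_sup_UU {p : ℕ} (hp : p.Prime) {e : ℕ} (he : v (p : k) = exp (-(e : ℤ))) (n : ℕ) :
    UU v (2 * e) ≤ pwk k p ⊔ UU v n := by
  induction n with
  | zero => exact (UU_antitone v (Nat.zero_le _)).trans le_sup_right
  | succ n ih =>
    by_cases hn : 2 * e ≤ n
    · refine ih.trans (sup_le le_sup_left ?_)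
      exact UU_le_pwk_sup_UU_succ v hp he hn
    · exact (UU_antitone v (by omega)).trans le_sup_right

end Discrete

end Fermat.Agent.S55.NIT.Inst
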