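/-
S55 / NIT / Inst : nodes G2-C6, G2-C7, the part independent of `locPow_eq` (G2-C3).
-/
import Fermat.Agent.S55.NIT.Inst.Defs

set_option autoImplicit false
set_option linter.unusedSectionVars false

namespace Fermat.Agent.S55.NIT.Inst

open IsDedekindDomain NumberField WithZero Polynomial

section NF

variable {K : Type*} [Field K] [NumberField K]

/-- `v(p) = 1` when `v` does not lie over `p`. -/
theorem val_natCast_eq_one_of_not_over {p : ℕ} (v : Pl K) (hv : ¬ SI.Over p K v) :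
    v.valuation K (p : K) = exp (-((0 : ℕ) : ℤ)) := by
  have h1 : v.valuation K (algebraMap (𝓞 K) K (p : 𝓞 K)) = 1 := by
    rw [HeightOneSpectrum.valuation_of_algebraMap, HeightOneSpectrum.intValuation_eq_one_iff]
    exact hv
  simpa using h1

/-- membership in `pw ⊔ pu v 0` for a unit. -/
theorem mem_pw_sup_pu_zero_iff {p : ℕ} (v : Pl K) (x : Kˣ) (hx : x ∈ SI.Uv K v) :
    x ∈ pw K p ⊔ pu v 0 ↔ ∃ y : Kˣ, v.valuation K ((x : K) - (y : K) ^ p) < 1 := by
  have hx1 : v.valuation K (x : K) = 1 := hx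
  rw [Subgroup.mem_sup]
  constructor
  · rintro ⟨a, ⟨y, rfl⟩, u, hu, rfl⟩
    refine ⟨y, ?_⟩
    have hu1 : v.valuation K (u : K) = 1 := val_eq_one_of_mem_pu hu
    have hu2 : v.valuation K ((u : K) - 1) < 1 := by simpa using mem_pu.1 hu
    have hy1 : v.valuation K ((y : K) ^ p) = 1 := by
      have : v.valuation K ((y : K) ^ p * (u : K)) = 1 := by simpa using hx1
      rwa [map_mul, hu1, mul_one] at this
    have e : (((powMonoidHom p) y * u : Kˣ) : K) - (y : K) ^ p = (y : K) ^ p * ((u : K) - 1) := by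
      simp only [powMonoidHom_apply, Units.val_mul, Units.val_pow_eq_pow_val]
      ring
    rw [e, map_mul, hy1, one_mul]
    exact hu2
  · rintro ⟨y, hy⟩
    have hy1 : v.valuation K ((y : K) ^ p) = 1 := by
      have h1 : v.valuation K ((x : K) - (y : K) ^ p) < v.valuation K (x : K) := by rwa [hx1]
      have h2 := Valuation.map_sub_eq_of_lt_left (v.valuation K) h1
      rw [sub_sub_cancel, hx1] at h2
      exact h2
    refine ⟨y ^ p, ⟨y, rfl⟩, x / y ^ p, ?_, by simp⟩
    rw [mem_pu]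
    have hy0 : (y : K) ^ p ≠ 0 := pow_ne_zero _ y.ne_zero
    have e : ((x / y ^ p : Kˣ) : K) - 1 = ((y : K) ^ p)⁻¹ * ((x : K) - (y : K) ^ p) := by
      simp only [Units.val_div_eq_div_val, Units.val_pow_eq_pow_val]
      field_simp
    rw [e, map_mul, map_inv₀, hy1, inv_one, one_mul]
    simpa using hy

/-- G2-C6 from G2-C3. -/
theorem mem_locPow_iff_tame_of_locPow_eq {p : ℕ} (v : Pl K)
    (h : locPow K p v = pw K p ⊔ pu v (2 * 0)) (x : Kˣ) (hx : x ∈ SI.Uv K v) :
    x ∈ locPow K p v ↔ ∃ y : Kˣ, v.valuation K ((x : K) - (y : K) ^ p) < 1 := by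
  rw [h, mul_zero]
  exact mem_pw_sup_pu_zero_iff v x hx

/-- G2-C7 (file `Tame.lean`). -/
theorem val_of_mem_locPow {p : ℕ} (v : Pl K) (x : Kˣ) (hx : x ∈ locPow K p v) :
    ∃ y : Kˣ, v.valuation K (x : K) = v.valuation K (y : K) ^ p := by
  obtain ⟨y, hy⟩ := mem_locPow.1 hx 0
  refine ⟨y, ?_⟩
  have h1 := val_eq_one_of_mem_pu hy
  rw [Units.val_div_eq_div_val, map_div₀, Units.val_pow_eq_pow_val, map_pow] at h1
  have hy0 : v.valuation K (y : K) ^ p ≠ 0 := pow_ne_zero _ (by simp)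
  rwa [div_eq_one_iff_eq hy0] at h1

end NF

end Fermat.Agent.S55.NIT.Inst
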