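/-
S55 / NIT / Inst : nodes G2-B2, G2-B3 (indices in the filtration of the unit group).
Owner: helper162.
-/
import Fermat.Agent.S55.NIT.Inst.Defs

set_option autoImplicit false
set_option linter.unusedSectionVars false

namespace Fermat.Agent.S55.NIT.Inst

open IsDedekindDomain NumberField WithZero Polynomial

section Discrete

variable {k : Type*} [Field k] (v : Valuation k ℤᵐ⁰)

/-- the basic relation: for a unit `u` of the valuation, `u⁻¹ u' ∈ UU v b` iff `u' - u` lies in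
the ball of radius `b + 1`. -/
theorem inv_mul_mem_UU_iff {u u' : kˣ} (hu : v (u : k) = 1) (b : ℕ) :
    u⁻¹ * u' ∈ UU v b ↔ (u' : k) - (u : k) ∈ ball v ((b : ℤ) + 1) := by
  have e : ((u⁻¹ * u' : kˣ) : k) - 1 = (u : k)⁻¹ * ((u' : k) - (u : k)) := by
    have : (u : k) ≠ 0 := u.ne_zero
    push_cast
    field_simp
  rw [mem_UU, mem_ball, e, map_mul, map_inv₀, hu, inv_one, one_mul, lt_exp_iff_le]
  have : (-(b : ℤ) - 1) = -((b : ℤ) + 1) := by ring
  rw [this]

theorem sub_one_mem_ball_iff {u : kˣ} (a : ℕ) :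
    u ∈ UU v a ↔ (u : k) - 1 ∈ ball v ((a : ℤ) + 1) := by
  rw [mem_UU, mem_ball, lt_exp_iff_le]
  have : (-(a : ℤ) - 1) = -((a : ℤ) + 1) := by ring
  rw [this]

theorem one_add_ne_zero_of_mem_ball {a : ℕ} {x : k} (hx : x ∈ ball v ((a : ℤ) + 1)) :
    1 + x ≠ 0 := by
  intro h0
  have hx1 : x = -1 := by linear_combination h0
  rw [mem_ball, hx1, Valuation.map_neg, map_one, ← exp_zero, exp_le_exp] at hx
  omega

/-- the bijection `u ↦ u - 1` from `UU v a` onto the ball of radius `a + 1`. -/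
noncomputable def UUEquivBall (a : ℕ) : ↥(UU v a) ≃ ↥(ball v ((a : ℤ) + 1)) where
  toFun u := ⟨((u : kˣ) : k) - 1, (sub_one_mem_ball_iff v a).1 u.2⟩
  invFun x := ⟨Units.mk0 (1 + (x : k)) (one_add_ne_zero_of_mem_ball v x.2), by
    rw [sub_one_mem_ball_iff, Units.val_mk0, add_sub_cancel_left]
    exact x.2⟩
  left_inv u := by
    apply Subtype.ext
    apply Units.ext
    simp
  right_inv x := by
    apply Subtype.ext
    simp

/-- G2-B2 (file `UUIndex.lean`). -/
theorem relIndex_UU {a b : ℕ} (h : a ≤ b) :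
    (UU v b).relIndex (UU v a) = (ball v (b + 1)).relIndex (ball v (a + 1)) := by
  rw [Subgroup.relIndex, AddSubgroup.relIndex, Subgroup.index, AddSubgroup.index]
  refine Nat.card_congr (Quotient.congr (UUEquivBall v a) ?_)
  intro u u'
  change QuotientGroup.leftRel _ u u' ↔ QuotientAddGroup.leftRel _ _ _
  rw [QuotientGroup.leftRel_apply, QuotientAddGroup.leftRel_apply, Subgroup.mem_subgroupOf,
    AddSubgroup.mem_addSubgroupOf]
  have hu : v ((u : kˣ) : k) = 1 := UU_le_U0 v a u.2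
  have e1 : ((u⁻¹ * u' : ↥(UU v a)) : kˣ) = (u : kˣ)⁻¹ * (u' : kˣ) := rfl
  rw [e1, inv_mul_mem_UU_iff v hu b]
  have e2 : ((-(UUEquivBall v a u) + UUEquivBall v a u' : ↥(ball v ((a : ℤ) + 1))) : k)
      = ((u' : kˣ) : k) - ((u : kˣ) : k) := by
    change -(((u : kˣ) : k) - 1) + (((u' : kˣ) : k) - 1) = _
    ring
  rw [e2]

/-- G2-B3 (file `UUIndex.lean`). -/
theorem relIndex_UU_U0_ne_zero (hq : (ball v 1).relIndex (ball v 0) ≠ 0) :
    (UU v 0).relIndex (U0 v) ≠ 0 := by
  rw [AddSubgroup.relIndex, AddSubgroup.index_ne_zero_iff_finite] at hq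
  rw [Subgroup.relIndex, Subgroup.index_ne_zero_iff_finite]
  have hmem : ∀ u : ↥(U0 v), ((u : kˣ) : k) ∈ ball v 0 := by
    intro u
    rw [mem_ball, (mem_U0 v).1 u.2, neg_zero, exp_zero]
  have key : ∀ u u' : ↥(U0 v),
      QuotientGroup.leftRel ((UU v 0).subgroupOf (U0 v)) u u' ↔
        QuotientAddGroup.leftRel ((ball v 1).addSubgroupOf (ball v 0))
          (⟨((u : kˣ) : k), hmem u⟩ : ↥(ball v 0)) ⟨((u' : kˣ) : k), hmem u'⟩ := by
    intro u u'
    rw [QuotientGroup.leftRel_apply, QuotientAddGroup.leftRel_apply, Subgroup.mem_subgroupOf,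
      AddSubgroup.mem_addSubgroupOf]
    have e1 : ((u⁻¹ * u' : ↥(U0 v)) : kˣ) = (u : kˣ)⁻¹ * (u' : kˣ) := rfl
    rw [e1, inv_mul_mem_UU_iff v ((mem_U0 v).1 u.2) 0]
    have e2 : ((-(⟨((u : kˣ) : k), hmem u⟩ : ↥(ball v 0)) + ⟨((u' : kˣ) : k), hmem u'⟩ :
        ↥(ball v 0)) : k) = ((u' : kˣ) : k) - ((u : kˣ) : k) := by
      change -((u : kˣ) : k) + ((u' : kˣ) : k) = _
      ring
    rw [e2]
    simp
  let f : (↥(U0 v) ⧸ (UU v 0).subgroupOf (U0 v)) →
      (↥(ball v 0) ⧸ (ball v 1).addSubgroupOf (ball v 0)) :=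
    Quotient.map (fun u => (⟨((u : kˣ) : k), hmem u⟩ : ↥(ball v 0)))
      (fun u u' huu => (key u u').1 huu)
  have hf : Function.Injective f := by
    intro x y
    induction x using Quotient.inductionOn with
    | _ u =>
      induction y using Quotient.inductionOn with
      | _ u' =>
        intro hxy
        exact Quotient.sound ((key u u').2 (Quotient.exact hxy))
  exact Finite.of_injective f hf

end Discrete

end Fermat.Agent.S55.NIT.Inst
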