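/-
S55 / NIT / Inst, node G2-A4: `y` close to `ζ ^ i` implies `y ^ p` very close to `1`.
-/
import Fermat.Agent.S55.NIT.Inst.Defs

set_option autoImplicit false
set_option linter.unusedSectionVars false

namespace Fermat.Agent.S55.NIT.Inst

open IsDedekindDomain NumberField WithZero Polynomial

section General

variable {k : Type*} [Field k] {Γ₀ : Type*} [LinearOrderedCommGroupWithZero Γ₀]
  (v : Valuation k Γ₀)

/-- G2-A4 (file `ZetaPow.lean`; uses `exists_add_pow_prime_eq`). -/
theorem val_pow_sub_one_lt {p : ℕ} (hp : p.Prime) {ζ : k} (hζ : IsPrimitiveRoot ζ p) {y : k}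
    {i : ℕ} (hy : v (y - ζ ^ i) < v (p : k)) : v (y ^ p - 1) < v (p : k) ^ 2 := by
  have hzp : (ζ ^ i) ^ p = 1 := by
    rw [← pow_mul, mul_comm, pow_mul, hζ.pow_eq_one, one_pow]
  have hvz : v (ζ ^ i) = 1 := by
    have h1 : v (ζ ^ i) ^ p = 1 := by rw [← map_pow, hzp, map_one]
    exact (pow_eq_one_iff.mp h1).resolve_right hp.ne_zero
  have hvp : v (p : k) ≤ 1 := by
    have : ((p : v.integer) : k) = (p : k) := by push_cast; rfl
    rw [← this]
    exact (p : v.integer).2
  have hvp0 : 0 < v (p : k) := lt_of_le_of_lt zero_le hy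
  set z := ζ ^ i with hz
  set t := y - z with ht
  have hvt : v t ≤ 1 := hy.le.trans hvp
  obtain ⟨r, hr⟩ := exists_add_pow_prime_eq hp (⟨z, hvz.le⟩ : v.integer) (⟨t, hvt⟩ : v.integer)
  have hr' : (z + t) ^ p = z ^ p + t ^ p + p * z * t * (r : k) := by
    have := congrArg (Subtype.val : v.integer → k) hr
    simpa using this
  have hyzt : y = z + t := by rw [ht]; ring
  have he : y ^ p - 1 = t ^ p + p * z * t * (r : k) := by
    rw [hyzt, hr', hzp]; ring
  rw [he]
  refine lt_of_le_of_lt (v.map_add _ _) (max_lt ?_ ?_)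
  · rw [map_pow]
    calc v t ^ p ≤ v t ^ 2 := pow_le_pow_right_of_le_one' hvt hp.two_le
      _ < v (p : k) ^ 2 := pow_lt_pow_left₀ hy zero_le two_ne_zero
  · rw [map_mul, map_mul, map_mul, hvz, mul_one, sq, mul_assoc]
    have h1 : v t * v (r : k) < v (p : k) :=
      lt_of_le_of_lt (mul_le_of_le_one_right' r.2) hy
    exact mul_lt_mul_of_pos_left h1 hvp0

end General

end Fermat.Agent.S55.NIT.Inst
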