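/-
S55 / NIT / Inst / G2-F5 F6 F7 : THE concrete instance `locData` of `SI.LocData`.
`pow v = locPow K p v`, `nrm b v = nrmD K p b v` (`= locNorm K L v` for `L = K(b^(1/p))`).
The final wrappers of the nodes B6 B7 C3 C4 C5 C6 are reproved here under the namespace `Fin`
(from the landed auxiliary files), so that this file does not wait for them.
-/
import Fermat.Agent.S55.NIT.Inst.Model
import Fermat.Agent.S55.NIT.Inst.ModelNorm
import Fermat.Agent.S55.NIT.Inst.ModelEquiv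
import Fermat.Agent.S55.NIT.Inst.SplitOfPow
import Fermat.Agent.S55.NIT.Inst.NormSplit
import Fermat.Agent.S55.NIT.Inst.LocalIndexAux
import Fermat.Agent.S55.NIT.Inst.LocalIndex2
import Fermat.Agent.S55.NIT.Inst.TameAux
import Fermat.Agent.S55.NIT.Inst.Stable
import Fermat.Agent.S55.NIT.Inst.ResidueCard
import Fermat.Agent.S55.NIT.Inst.ValP
import Fermat.Agent.S55.NIT.Inst.UUIndex
import Fermat.Agent.S55.NIT.Inst.BallIndex
import Fermat.Agent.S55.NIT.Inst.PowIndexAbs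
import Fermat.Agent.S55.NIT.Inst.Zeta
import Fermat.Agent.S55.NIT.Inst.ZetaPow

set_option autoImplicit false
set_option linter.unusedSectionVars false

namespace Fermat.Agent.S55.NIT.Inst

open IsDedekindDomain NumberField WithZero Polynomial

namespace Fin

section Discrete

variable {k : Type*} [Field k] (v : Valuation k ℤᵐ⁰)

/-- G2-B6. -/
theorem relIndex_pwk_sup_UU {p : ℕ} (hp : p.Prime) {ζ : k} (hζ : IsPrimitiveRoot ζ p) {π : k}
    (hπ : v π = exp (-1 : ℤ)) {e : ℕ} (he : v (p : k) = exp (-(e : ℤ)))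
    (hq : (ball v 1).relIndex (ball v 0) ≠ 0) :
    (pwk k p ⊔ UU v (2 * e)).relIndex (U0 v) = p * (ball v 1).relIndex (ball v 0) ^ e := by
  have hζ0 : ζ ≠ 0 := hζ.ne_zero hp.ne_zero
  set ζu : kˣ := Units.mk0 ζ hζ0 with hζu
  have hζu' : IsPrimitiveRoot ζu p := by
    have : IsPrimitiveRoot ((ζu : kˣ) : k) p := by simpa [hζu] using hζ
    exact IsPrimitiveRoot.coe_units_iff.1 this
  have hord : orderOf ζu = p := hζu'.eq_orderOf.symm
  have hfin : (UU v (2 * e)).relIndex (U0 v) ≠ 0 := by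
    rw [← Subgroup.relIndex_mul_relIndex (UU v (2 * e)) (UU v 0) (U0 v)
      (UU_antitone v (Nat.zero_le _)) (UU_le_U0 v 0)]
    refine mul_ne_zero ?_ (relIndex_UU_U0_ne_zero v hq)
    rw [relIndex_UU v (Nat.zero_le _)]
    have := relIndex_ball v hπ ((0 : ℕ) + 1 : ℤ) (2 * e)
    have h2 : (((0 : ℕ) : ℤ) + 1 + ((2 * e : ℕ) : ℤ)) = (((2 * e : ℕ) : ℤ) + 1) := by ring
    rw [h2] at this
    rw [this]
    exact pow_ne_zero _ hq
  refine LocalIndex.relIndex_core (ζu := ζu) hp hord he _ ?_ ?_ ?_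
    (relIndex_map_pow_sup p (U0 v) (UU v (2 * e)) (UU_le_U0 v _) hfin) ?_
  · intro i hi
    exact val_le_val_zeta_sub v hp hζ hi
  · intro y hy
    exact exists_val_sub_zeta_lt v hp hζ hy
  · intro y hy
    exact val_pow_sub_one_lt v hp hζ hy
  · rw [relIndex_UU v (by omega : e ≤ 2 * e)]
    have := relIndex_ball v hπ ((e : ℤ) + 1) e
    have h2 : ((e : ℤ) + 1 + (e : ℤ)) = (((2 * e : ℕ) : ℤ) + 1) := by push_cast; ring
    rw [h2] at this
    exact this

/-- G2-B7. -/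
theorem index_pwk_sup_UU {p : ℕ} (hp : p.Prime) {ζ : k} (hζ : IsPrimitiveRoot ζ p) {π : k}
    (hπ : v π = exp (-1 : ℤ)) {e : ℕ} (he : v (p : k) = exp (-(e : ℤ)))
    (hq : (ball v 1).relIndex (ball v 0) ≠ 0) :
    (pwk k p ⊔ UU v (2 * e)).index = p ^ 2 * (ball v 1).relIndex (ball v 0) ^ e :=
  index_pwk_sup_UU_of v hπ (relIndex_pwk_sup_UU v hp hζ hπ he hq)

end Discrete

section NF

variable {K : Type*} [Field K] [NumberField K]

/-- G2-C3. -/
theorem locPow_eq {p : ℕ} (hp : p.Prime) (v : Pl K) {e : ℕ}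
    (he : v.valuation K (p : K) = exp (-(e : ℤ))) : locPow K p v = pw K p ⊔ pu v (2 * e) := by
  apply le_antisymm
  · exact iInf_le _ (2 * e)
  · exact le_iInf fun n => sup_le le_sup_left (UU_le_pwk_sup_UU (v.valuation K) hp he n)

theorem absNorm_ne_zero (v : Pl K) : Ideal.absNorm v.asIdeal ≠ 0 := by
  rw [Ne, Ideal.absNorm_eq_zero_iff]
  exact v.ne_bot

/-- G2-C4. -/
theorem index_locPow {p : ℕ} (hp : p.Prime) {ζ : K} (hζ : IsPrimitiveRoot ζ p) (v : Pl K) :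
    (locPow K p v).index = p ^ 2 * Ideal.absNorm (v.maxPowDividing (Ideal.span {(p : 𝓞 K)})) := by
  obtain ⟨e, he, hN, -⟩ := exists_val_natCast v hp.ne_zero
  obtain ⟨π, hπ⟩ := v.valuation_exists_uniformizer K
  have hq : (ball (v.valuation K) 1).relIndex (ball (v.valuation K) 0) ≠ 0 := by
    rw [relIndex_ball_eq_absNorm]; exact absNorm_ne_zero v
  rw [locPow_eq hp v he, hN, ← relIndex_ball_eq_absNorm]
  exact index_pwk_sup_UU (v.valuation K) hp hζ hπ he hq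

/-- G2-C5. -/
theorem relIndex_locPow_Uv {p : ℕ} (hp : p.Prime) {ζ : K} (hζ : IsPrimitiveRoot ζ p) (v : Pl K)
    (hv : ¬ SI.Over p K v) : (locPow K p v).relIndex (SI.Uv K v) = p := by
  obtain ⟨e, he, -, h0⟩ := exists_val_natCast v hp.ne_zero
  obtain ⟨π, hπ⟩ := v.valuation_exists_uniformizer K
  have hq : (ball (v.valuation K) 1).relIndex (ball (v.valuation K) 0) ≠ 0 := by
    rw [relIndex_ball_eq_absNorm]; exact absNorm_ne_zero v
  have he0 : e = 0 := h0.2 hv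
  rw [locPow_eq hp v he]
  have := relIndex_pwk_sup_UU (v.valuation K) hp hζ hπ he hq
  rw [he0, pow_zero, mul_one] at this
  rw [he0]
  exact this

/-- G2-C6. -/
theorem mem_locPow_iff_tame {p : ℕ} (hp : p.Prime) (v : Pl K) (hv : ¬ SI.Over p K v) (x : Kˣ)
    (hx : x ∈ SI.Uv K v) :
    x ∈ locPow K p v ↔ ∃ y : Kˣ, v.valuation K ((x : K) - (y : K) ^ p) < 1 := by
  obtain ⟨e, he, -, h0⟩ := exists_val_natCast v hp.ne_zero
  have he0 : e = 0 := h0.2 hv
  subst he0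
  exact mem_locPow_iff_tame_of_locPow_eq v (locPow_eq hp v he) x hx

end NF

end Fin

variable {K : Type*} [Field K] [NumberField K]

/-- G2-F5. -/
theorem locNormA_Ab_eq_top {p : ℕ} (hp : p.Prime) (hp2 : p ≠ 2) {ζ : K} (hζ : IsPrimitiveRoot ζ p)
    {b : Kˣ} (hb : ∀ c : Kˣ, c ^ p ≠ b) {v : Pl K} (hv : b ∈ locPow K p v) :
    locNormA K (Ab K p b) v = ⊤ := by
  have : Fact (Irreducible (X ^ p - C (b : K))) := ⟨irreducible_X_pow_sub_C hp hb⟩
  have : NumberField (Ab K p b) := numberField_Ab hp.ne_zero b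
  have hK : Kum K (Ab K p b) p := kum_Ab hp hp2 hζ b
  have hs : Split K (Ab K p b) v := split_of_mem_locPow hK (root_pow_Ab b) hb hv
  exact locNorm_eq_top_of_split hK hs

theorem pow_mem_locPow (p : ℕ) (v : Pl K) (x : Kˣ) : x ^ p ∈ locPow K p v :=
  mem_locPow.2 fun n => ⟨x, by rw [div_self']; exact one_mem _⟩

theorem locPow_le_locNormA {p : ℕ} (hp : p ≠ 0) (b : Kˣ) (v : Pl K) :
    locPow K p v ≤ locNormA K (Ab K p b) v :=
  iInf_mono fun _ => sup_le_sup_right (pw_le_nrmA hp b) _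

theorem locPow_le_nrmD {p : ℕ} (hp : p ≠ 0) (b : Kˣ) (v : Pl K) :
    locPow K p v ≤ nrmD K p b v := by
  by_cases h : ∃ c : Kˣ, c ^ p = b
  · rw [nrmD_of_pow h]; exact le_top
  · rw [nrmD_of_not_pow (fun c hc => h ⟨c, hc⟩)]; exact locPow_le_locNormA hp b v

theorem nrmD_eq_top {p : ℕ} (hp : p.Prime) (hp2 : p ≠ 2) {ζ : K} (hζ : IsPrimitiveRoot ζ p)
    (b : Kˣ) (v : Pl K) (hv : b ∈ locPow K p v) : nrmD K p b v = ⊤ := by
  by_cases h : ∃ c : Kˣ, c ^ p = b
  · exact nrmD_of_pow h v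
  · rw [nrmD_of_not_pow (fun c hc => h ⟨c, hc⟩)]
    exact locNormA_Ab_eq_top hp hp2 hζ (fun c hc => h ⟨c, hc⟩) hv

/-- Pure group theory: a subgroup of prime relative index and one element outside generate. -/
theorem le_zpowers_sup_of_relIndex_prime {G : Type*} [CommGroup G] {p : ℕ} (hp : p.Prime)
    (H U : Subgroup G) (h : H.relIndex U = p) {b : G} (hbU : b ∈ U) (hbH : b ∉ H) :
    U ≤ Subgroup.zpowers b ⊔ H := by
  set H₀ := H ⊓ U with hH₀
  set M := Subgroup.zpowers b ⊔ H₀ with hM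
  have h0 : H₀.relIndex U = p := by rw [hH₀, Subgroup.inf_relIndex_right, h]
  have hMU : M ≤ U := sup_le (by rwa [Subgroup.zpowers_le]) inf_le_right
  have hmul : H₀.relIndex M * M.relIndex U = p := by
    rw [Subgroup.relIndex_mul_relIndex H₀ M U le_sup_right hMU, h0]
  have hne : H₀.relIndex M ≠ 1 := by
    intro h1
    have : M ≤ H₀ := Subgroup.relIndex_eq_one.1 h1
    exact hbH (this (Subgroup.mem_sup_left (Subgroup.mem_zpowers b))).1
  have hdvd : H₀.relIndex M ∣ p := ⟨_, hmul.symm⟩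
  have hp' : H₀.relIndex M = p := ((Nat.dvd_prime hp).1 hdvd).resolve_left hne
  have h1 : M.relIndex U = 1 := by
    rw [hp'] at hmul
    exact Nat.eq_of_mul_eq_mul_left hp.pos (by rw [hmul, mul_one])
  exact (Subgroup.relIndex_eq_one.1 h1).trans (sup_le_sup_left inf_le_left _)

theorem Uv_le_nrmD {p : ℕ} (hp : p.Prime) (hp2 : p ≠ 2) {ζ : K} (hζ : IsPrimitiveRoot ζ p)
    (b : Kˣ) (v : Pl K) (hv : ¬ SI.Over p K v) (hb : b ∈ SI.Uv K v) :
    SI.Uv K v ≤ nrmD K p b v := by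
  by_cases hbp : b ∈ locPow K p v
  · rw [nrmD_eq_top hp hp2 hζ b v hbp]; exact le_top
  · have hnp : ∀ c : Kˣ, c ^ p ≠ b := fun c hc => hbp (hc ▸ pow_mem_locPow p v c)
    refine (le_zpowers_sup_of_relIndex_prime hp _ _ (Fin.relIndex_locPow_Uv hp hζ v hv) hb
      hbp).trans (sup_le ?_ (locPow_le_nrmD hp.ne_zero b v))
    rw [Subgroup.zpowers_le, nrmD_of_not_pow hnp]
    exact Subgroup.mem_iInf.2 fun n =>
      Subgroup.mem_sup_left (self_mem_nrmA (hp.odd_of_ne_two hp2) b)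

/-- G2-F6. THE INSTANCE. -/
noncomputable def locData {p : ℕ} (hp : p.Prime) (hp2 : p ≠ 2) {ζ : K} (hζ : IsPrimitiveRoot ζ p) :
    SI.LocData p K where
  pow := locPow K p
  nrm := nrmD K p
  pow_mem := pow_mem_locPow p
  val_of_mem_pow := val_of_mem_locPow
  pow_le_nrm := locPow_le_nrmD hp.ne_zero
  nrm_eq_top := nrmD_eq_top hp hp2 hζ
  unit_le_nrm := Uv_le_nrmD hp hp2 hζ
  index_pow := Fin.index_locPow hp hζ
  tame := Fin.mem_locPow_iff_tame hp

@[simp] theorem locData_pow {p : ℕ} (hp : p.Prime) (hp2 : p ≠ 2) {ζ : K}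
    (hζ : IsPrimitiveRoot ζ p) : (locData hp hp2 hζ).pow = locPow K p := rfl

@[simp] theorem locData_nrm {p : ℕ} (hp : p.Prime) (hp2 : p ≠ 2) {ζ : K}
    (hζ : IsPrimitiveRoot ζ p) : (locData hp hp2 hζ).nrm = nrmD K p := rfl

/-- G2-F7. -/
theorem nrmD_eq_locNorm {L : Type*} [Field L] [NumberField L] [Algebra K L] {p : ℕ}
    (h : Kum K L p) {b : Kˣ} {β : L} (hβ : β ^ p = algebraMap K L (b : K))
    (hb : ∀ c : Kˣ, c ^ p ≠ b) (v : Pl K) : nrmD K p b v = locNorm K L v := by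
  rw [nrmD_of_not_pow hb, locNormA, nrmA_Ab_eq_nrm h hβ hb, locNorm]

/-- The form requested by the consumers (`inst_nrm_eq`). -/
theorem locData_nrm_eq_locNorm {L : Type*} [Field L] [NumberField L] [Algebra K L] {p : ℕ}
    (h : Kum K L p) {ζ : K} (hζ : IsPrimitiveRoot ζ p) {b : Kˣ} {β : L}
    (hβ : β ^ p = algebraMap K L (b : K)) (hb : ∀ c : Kˣ, c ^ p ≠ b) (v : Pl K) :
    (locData h.prime h.odd hζ).nrm b v = locNorm K L v :=
  nrmD_eq_locNorm h hβ hb v

end Fermat.Agent.S55.NIT.Inst
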