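/-
S55 / NIT / Inst, node G2-E3: a Kummer extension of prime degree is generated by a `p`-th root.
Owner: helper49.
-/
import Fermat.Agent.S55.NIT.Inst.Defs
import Fermat.Agent.S55.NIT.Assembly

set_option autoImplicit false
set_option linter.unusedSectionVars false

namespace Fermat.Agent.S55.NIT.Inst

open IsDedekindDomain NumberField WithZero Polynomial IntermediateField

section Kummer

variable {K : Type*} [Field K] [NumberField K] {L : Type*} [Field L] [NumberField L] [Algebra K L]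

/-- G2-E3 (file `KummerGen.lean`). -/
theorem exists_kummer_generator {p : ℕ} (h : Kum K L p) :
    ∃ (b : Kˣ) (β : L), β ^ p = algebraMap K L (b : K) ∧ ∀ c : Kˣ, c ^ p ≠ b := by
  have := h.galois
  have : Fact p.Prime := ⟨h.prime⟩
  have : NeZero p := ⟨h.prime.ne_zero⟩
  have hcard : Nat.card (L ≃ₐ[K] L) = p := by rw [IsGalois.card_aut_eq_finrank, h.deg]
  have : IsCyclic (L ≃ₐ[K] L) := isCyclic_of_prime_card hcard
  obtain ⟨ζ, hζ⟩ := h.zeta
  have hK : (primitiveRoots (Module.finrank K L) K).Nonempty :=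
    ⟨ζ, by rw [h.deg, mem_primitiveRoots h.prime.pos]; exact hζ⟩
  obtain ⟨α, ⟨b, hb⟩, hα⟩ := exists_root_adjoin_eq_top_of_isCyclic K L hK
  rw [h.deg] at hb
  have hnot : α ∉ Set.range (algebraMap K L) := by
    intro hmem
    have h1 : K⟮α⟯ = ⊥ := adjoin_simple_eq_bot_iff.mpr (mem_bot.mpr hmem)
    rw [hα] at h1
    have h2 := bot_eq_top_iff_finrank_eq_one.mp h1.symm
    rw [h.deg] at h2
    exact h.prime.one_lt.ne' h2
  have hb0 : b ≠ 0 := by
    rintro rfl
    rw [map_zero] at hb
    have : α = 0 := pow_eq_zero_iff h.prime.ne_zero |>.mp hb.symm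
    exact hnot ⟨0, by rw [map_zero, this]⟩
  refine ⟨Units.mk0 b hb0, α, hb.symm, fun c hc => hnot ?_⟩
  have hc' : (c : K) ^ p = b := by
    have := congrArg (fun u : Kˣ => (u : K)) hc
    simpa using this
  have hcL : algebraMap K L (c : K) ≠ 0 := (_root_.map_ne_zero _).mpr c.ne_zero
  have h1 : (α / algebraMap K L (c : K)) ^ p = 1 := by
    rw [div_pow, ← hb, ← hc', map_pow, div_self (pow_ne_zero _ hcL)]
  have hζL : IsPrimitiveRoot (algebraMap K L ζ) p :=
    hζ.map_of_injective (algebraMap K L).injective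
  obtain ⟨i, -, hi⟩ := hζL.eq_pow_of_pow_eq_one h1
  refine ⟨ζ ^ i * c, ?_⟩
  rw [map_mul, map_pow, hi, div_mul_cancel₀ _ hcL]

end Kummer

end Fermat.Agent.S55.NIT.Inst
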