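/-
S55 / NIT / Inst / G2-F4 : the norm group of `K[X]/(X^p - b)` is the norm group of `L = K(β)`, `β ^ p = b`.
-/
import Fermat.Agent.S55.NIT.Inst.Model

set_option autoImplicit false
set_option linter.unusedSectionVars false

namespace Fermat.Agent.S55.NIT.Inst

open IsDedekindDomain NumberField WithZero Polynomial

variable {K : Type*} [Field K] [NumberField K]

/-- norm groups of isomorphic algebras agree -/
theorem nrmA_eq_of_algEquiv {A B : Type*} [CommRing A] [Algebra K A] [CommRing B] [Algebra K B]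
    (E : A ≃ₐ[K] B) : nrmA K A = nrmA K B := by
  apply le_antisymm
  · rintro _ ⟨a, rfl⟩
    refine ⟨Units.map (E : A →* B) a, Units.ext ?_⟩
    show Algebra.norm K (E (a : A)) = Algebra.norm K (a : A)
    exact Algebra.norm_eq_of_algEquiv E _
  · rintro _ ⟨a, rfl⟩
    refine ⟨Units.map (E.symm : B →* A) a, Units.ext ?_⟩
    show Algebra.norm K (E.symm (a : B)) = Algebra.norm K (a : B)
    exact Algebra.norm_eq_of_algEquiv E.symm _

/-- G2-F4 (file `ModelEquiv.lean`). -/
theorem nrmA_Ab_eq_nrm {L : Type*} [Field L] [NumberField L] [Algebra K L] {p : ℕ} (h : Kum K L p)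
    {b : Kˣ} {β : L} (hβ : β ^ p = algebraMap K L (b : K)) (hb : ∀ c : Kˣ, c ^ p ≠ b) :
    nrmA K (Ab K p b) = nrm K L := by
  have H : Fact (Irreducible (X ^ p - C (b : K))) := ⟨irreducible_X_pow_sub_C h.prime hb⟩
  let φ : Ab K p b →ₐ[K] L := AdjoinRoot.liftAlgHom _ (Algebra.ofId K L) β (by
    simp [hβ])
  have hinj : Function.Injective φ := (φ : Ab K p b →+* L).injective
  have hfinA : Module.Finite K (Ab K p b) := finite_Ab h.prime.ne_zero b
  have hfinL : Module.Finite K L := Module.finite_of_finrank_pos (by rw [h.deg]; exact h.prime.pos)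
  have hrank : Module.finrank K (Ab K p b) = Module.finrank K L := by
    rw [finrank_Ab h.prime.ne_zero b, h.deg]
  have hsurj : Function.Surjective φ :=
    (LinearMap.injective_iff_surjective_of_finrank_eq_finrank hrank (f := φ.toLinearMap)).1 hinj
  rw [← nrmA_eq_nrm]
  exact nrmA_eq_of_algEquiv (AlgEquiv.ofBijective φ ⟨hinj, hsurj⟩)

end Fermat.Agent.S55.NIT.Inst
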