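/-
S55 / NIT / Inst, node G2-B4 (pure group theory).  Owner: helper231 (task 1196).
-/
import Fermat.Agent.S55.NIT.Inst.Defs

set_option autoImplicit false

namespace Fermat.Agent.S55.NIT.Inst

/-- G2-B4 (file `PowIndexAbs.lean`; pure group theory). -/
theorem relIndex_map_pow_sup {G : Type*} [CommGroup G] (p : ℕ) (U U₂ : Subgroup G) (h : U₂ ≤ U)
    (hfin : U₂.relIndex U ≠ 0) :
    (U.map (powMonoidHom p) ⊔ U₂).relIndex U = U₂.relIndex (U ⊓ U₂.comap (powMonoidHom p)) := by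
  have hmapU : U.map (powMonoidHom p) ≤ U := by
    rintro _ ⟨u, hu, rfl⟩
    exact U.pow_mem hu p
  have hQU : U.map (powMonoidHom p) ⊔ U₂ ≤ U := sup_le hmapU h
  have hU₂Q : U₂ ≤ U.map (powMonoidHom p) ⊔ U₂ := le_sup_right
  have hU₂V : U₂ ≤ U ⊓ U₂.comap (powMonoidHom p) :=
    le_inf h fun x hx => U₂.pow_mem hx p
  have hVU : U ⊓ U₂.comap (powMonoidHom p) ≤ U := inf_le_left
  have e1 := Subgroup.relIndex_mul_relIndex _ _ _ hU₂Q hQU
  have e2 := Subgroup.relIndex_mul_relIndex _ _ _ hU₂V hVU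
  have e3 : (U ⊓ U₂.comap (powMonoidHom p)).relIndex U
      = U₂.relIndex (U.map (powMonoidHom p) ⊔ U₂) := by
    rw [Subgroup.inf_relIndex_left, Subgroup.relIndex_comap, Subgroup.relIndex_sup_right]
  have hc : U₂.relIndex (U.map (powMonoidHom p) ⊔ U₂) ≠ 0 := by
    intro h0
    rw [h0, zero_mul] at e1
    exact hfin e1.symm
  rw [e3, ← e1, mul_comm] at e2
  exact (Nat.eq_of_mul_eq_mul_left (Nat.pos_of_ne_zero hc) e2).symm

end Fermat.Agent.S55.NIT.Inst
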