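/-
S55 / NIT / Inst, node G2-B6: `[U : U ∩ k^×p U^(2e+1)] = p q^e`.  Owner: helper244.
Assembly of the nodes A2 A3 A4 B1 B2 B3 B4 (core in `LocalIndexAux.lean`).
-/
import Fermat.Agent.S55.NIT.Inst.LocalIndexAux
import Fermat.Agent.S55.NIT.Inst.Zeta
import Fermat.Agent.S55.NIT.Inst.ZetaPow
import Fermat.Agent.S55.NIT.Inst.BallIndex
import Fermat.Agent.S55.NIT.Inst.UUIndex
import Fermat.Agent.S55.NIT.Inst.PowIndexAbs

set_option autoImplicit false
set_option linter.unusedSectionVars false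

namespace Fermat.Agent.S55.NIT.Inst

open IsDedekindDomain NumberField WithZero Polynomial

variable {k : Type*} [Field k] (v : Valuation k ℤᵐ⁰)

/-- `[U^(a+1) : U^(a+d+1)] = q^d` -/
theorem relIndex_UU_add {π : k} (hπ : v π = exp (-1 : ℤ)) (a d : ℕ) :
    (UU v (a + d)).relIndex (UU v a) = (ball v 1).relIndex (ball v 0) ^ d := by
  rw [relIndex_UU v (Nat.le_add_right a d), ← relIndex_ball v hπ ((a : ℤ) + 1) d]
  congr 2
  push_cast
  ring

/-- G2-B6 (file `LocalIndex.lean`; uses A2 A3 A4 B1 B2 B3 B4). -/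
theorem relIndex_pwk_sup_UU {p : ℕ} (hp : p.Prime) {ζ : k} (hζ : IsPrimitiveRoot ζ p) {π : k}
    (hπ : v π = exp (-1 : ℤ)) {e : ℕ} (he : v (p : k) = exp (-(e : ℤ)))
    (hq : (ball v 1).relIndex (ball v 0) ≠ 0) :
    (pwk k p ⊔ UU v (2 * e)).relIndex (U0 v) = p * (ball v 1).relIndex (ball v 0) ^ e := by
  let ζu : kˣ := Units.mk0 ζ (hζ.ne_zero hp.ne_zero)
  have hζu : orderOf ζu = p := by
    rw [← orderOf_units]
    exact hζ.eq_orderOf.symm
  have hfin : (UU v (2 * e)).relIndex (U0 v) ≠ 0 := by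
    rw [← Subgroup.relIndex_mul_relIndex (UU v (2 * e)) (UU v 0) (U0 v)
      (UU_antitone v (Nat.zero_le _)) (UU_le_U0 v 0)]
    refine mul_ne_zero ?_ (relIndex_UU_U0_ne_zero v hq)
    have := relIndex_UU_add v hπ 0 (2 * e)
    rw [zero_add] at this
    rw [this]
    exact pow_ne_zero _ hq
  refine LocalIndex.relIndex_core (ζu := ζu) hp hζu he _
    (fun i hi => val_le_val_zeta_sub v hp hζ hi)
    (fun y hy => exists_val_sub_zeta_lt v hp hζ hy)
    (fun y hy => val_pow_sub_one_lt v hp hζ hy)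
    (relIndex_map_pow_sup p (U0 v) (UU v (2 * e)) (UU_le_U0 v _) hfin) ?_
  have := relIndex_UU_add v hπ e e
  rwa [← two_mul] at this

end Fermat.Agent.S55.NIT.Inst
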